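import Fermat.Agent.Grp.Index
import Fermat.Agent.LoweringAtP.Model.Numerics
import Fermat.Agent.WeightOneGalois.Defs

/-!
# Groups between `± Γ(M)` and `SL(2, ℤ)`

The groups `Gamma00` and `GTc` (conjugates of `Γ₀(M²)` and `GT M` by `diag(M, 1)`) and their
indices, for the degree computation over the `j`-line.
-/

noncomputable section

open Matrix CongruenceSubgroup ModularGroup
open scoped MatrixGroups

namespace Fermat.Agent.WeightOneGalois.Field

variable (M : ℕ)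

/-- Reduction modulo `M`. -/
abbrev redHom : SL(2, ℤ) →* SpecialLinearGroup (Fin 2) (ZMod M) :=
  SpecialLinearGroup.map (Int.castRingHom (ZMod M))

theorem redHom_apply (γ : SL(2, ℤ)) (i j : Fin 2) :
    (redHom M γ : Matrix (Fin 2) (Fin 2) (ZMod M)) i j = (γ i j : ZMod M) := rfl

/-- `± Γ(M)`. -/
def pmGamma : Subgroup SL(2, ℤ) where
  carrier := {γ | redHom M γ = 1 ∨ redHom M γ = -1}
  one_mem' := Or.inl (map_one _)
  mul_mem' := by
    rintro a b (ha | ha) (hb | hb) <;> simp [ha, hb]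
  inv_mem' := by
    rintro a (ha | ha) <;> simp only [Set.mem_ofPred_eq, map_inv, ha]
    · exact Or.inl inv_one
    · exact Or.inr (inv_eq_of_mul_eq_one_right (by simp))

variable {M}

theorem mem_pmGamma {γ : SL(2, ℤ)} : γ ∈ pmGamma M ↔ redHom M γ = 1 ∨ redHom M γ = -1 := Iff.rfl

instance normal_pmGamma : (pmGamma M).Normal where
  conj_mem a ha g := by
    rw [mem_pmGamma] at ha ⊢
    rcases ha with ha | ha
    · left
      rw [map_mul, map_mul, ha, mul_one, ← map_mul, mul_inv_cancel, map_one]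
    · right
      rw [map_mul, map_mul, ha, mul_neg, mul_one, neg_mul, ← map_mul, mul_inv_cancel, map_one]

theorem mem_pmGamma_iff {γ : SL(2, ℤ)} :
    γ ∈ pmGamma M ↔ ((γ 0 1 : ℤ) : ZMod M) = 0 ∧ ((γ 1 0 : ℤ) : ZMod M) = 0 ∧
      ((((γ 0 0 : ℤ) : ZMod M) = 1 ∧ ((γ 1 1 : ℤ) : ZMod M) = 1) ∨
        (((γ 0 0 : ℤ) : ZMod M) = -1 ∧ ((γ 1 1 : ℤ) : ZMod M) = -1)) := by
  rw [mem_pmGamma]
  constructor
  · intro h
    rcases h with h | h
    · have e : ∀ i j, ((γ i j : ℤ) : ZMod M) = (1 : Matrix (Fin 2) (Fin 2) (ZMod M)) i j :=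
        fun i j => (redHom_apply M γ i j).symm.trans (by rw [h]; rfl)
      exact ⟨by simp [e], by simp [e], Or.inl ⟨by simp [e], by simp [e]⟩⟩
    · have e : ∀ i j, ((γ i j : ℤ) : ZMod M) = (-1 : Matrix (Fin 2) (Fin 2) (ZMod M)) i j :=
        fun i j => (redHom_apply M γ i j).symm.trans (by rw [h]; rfl)
      exact ⟨by simp [e], by simp [e], Or.inr ⟨by simp [e], by simp [e]⟩⟩
  · rintro ⟨hb, hc, ⟨ha, hd⟩ | ⟨ha, hd⟩⟩
    · refine Or.inl (Subtype.ext (Matrix.ext fun i j => ?_))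
      rw [redHom_apply]
      fin_cases i <;> fin_cases j <;> simp [ha, hb, hc, hd]
    · refine Or.inr (Subtype.ext (Matrix.ext fun i j => ?_))
      rw [redHom_apply]
      fin_cases i <;> fin_cases j <;> simp [ha, hb, hc, hd]

theorem Gamma_le_pmGamma : Gamma M ≤ pmGamma M := fun _ hγ => Or.inl (Gamma_mem'.1 hγ)

instance finiteIndex_pmGamma [NeZero M] : (pmGamma M).FiniteIndex :=
  Subgroup.finiteIndex_of_le Gamma_le_pmGamma

variable (M)

/-- Lower and upper entries divisible by `M`. -/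
def Gamma00 : Subgroup SL(2, ℤ) where
  carrier := {γ | ((γ 0 1 : ℤ) : ZMod M) = 0 ∧ ((γ 1 0 : ℤ) : ZMod M) = 0}
  one_mem' := by simp
  mul_mem' := by
    rintro a b ⟨ha, ha'⟩ ⟨hb, hb'⟩
    simp [Matrix.mul_apply, Fin.sum_univ_two, ha, ha', hb, hb']
  inv_mem' := by
    rintro a ⟨ha, ha'⟩
    simp [Matrix.adjugate_fin_two, ha, ha']

variable {M}

theorem mem_Gamma00 {γ : SL(2, ℤ)} :
    γ ∈ Gamma00 M ↔ ((γ 0 1 : ℤ) : ZMod M) = 0 ∧ ((γ 1 0 : ℤ) : ZMod M) = 0 := Iff.rfl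

theorem diag_mul_eq_one {γ : SL(2, ℤ)} (hγ : ((γ 1 0 : ℤ) : ZMod M) = 0) :
    ((γ 0 0 : ℤ) : ZMod M) * ((γ 1 1 : ℤ) : ZMod M) = 1 := by
  have h := γ.2
  rw [Matrix.det_fin_two] at h
  have h2 := congrArg (Int.cast : ℤ → ZMod M) h
  push_cast at h2
  rwa [hγ, mul_zero, sub_zero] at h2

variable (M)

/-- The conjugate of `GT M` by `diag(M, 1)`. -/
def GTc : Subgroup SL(2, ℤ) where
  carrier := {γ | γ ∈ Gamma00 M ∧ (((γ 1 1 : ℤ) : ZMod M) = 1 ∨ ((γ 1 1 : ℤ) : ZMod M) = -1)}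
  one_mem' := ⟨one_mem _, Or.inl (by simp)⟩
  mul_mem' := by
    rintro a b ⟨ha, ha'⟩ ⟨hb, hb'⟩
    refine ⟨mul_mem ha hb, ?_⟩
    have e : (((a * b : SL(2, ℤ)) 1 1 : ℤ) : ZMod M) = (a 1 1 : ZMod M) * (b 1 1 : ZMod M) := by
      simp [Matrix.mul_apply, Fin.sum_univ_two, ha.2]
    rcases ha' with h | h <;> rcases hb' with h' | h' <;> rw [e, h, h'] <;> simp
  inv_mem' := by
    rintro a ⟨ha, ha'⟩
    refine ⟨inv_mem ha, ?_⟩
    have hdet := diag_mul_eq_one ha.2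
    rcases ha' with h | h <;> simp [Matrix.adjugate_fin_two, h] at hdet ⊢
    · exact Or.inl hdet
    · exact Or.inr (by linear_combination -hdet)

variable {M}

theorem mem_GTc {γ : SL(2, ℤ)} : γ ∈ GTc M ↔
    γ ∈ Gamma00 M ∧ (((γ 1 1 : ℤ) : ZMod M) = 1 ∨ ((γ 1 1 : ℤ) : ZMod M) = -1) := Iff.rfl

theorem pmGamma_le_GTc : pmGamma M ≤ GTc M := fun γ hγ => by
  rw [mem_pmGamma_iff] at hγ
  exact ⟨⟨hγ.1, hγ.2.1⟩, hγ.2.2.imp And.right And.right⟩

theorem pmGamma_le_Gamma00 : pmGamma M ≤ Gamma00 M := pmGamma_le_GTc.trans fun _ h => h.1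

/-- The lower unipotent matrix `(1 0; 1 1)`. -/
def lowerOne : SL(2, ℤ) := ⟨!![1, 0; 1, 1], by simp [Matrix.det_fin_two]⟩

@[simp] theorem coe_lowerOne : (lowerOne : Matrix (Fin 2) (Fin 2) ℤ) = !![1, 0; 1, 1] := rfl

/-- A subgroup over `± Γ(M)` containing `T` and an element with invertible lower left entry is
everything. -/
theorem eq_top_of_mem {H : Subgroup SL(2, ℤ)} (hN : pmGamma M ≤ H) (hT : T ∈ H) {g : SL(2, ℤ)}
    (hg : g ∈ H) (hu : IsUnit ((g 1 0 : ℤ) : ZMod M)) : H = ⊤ := by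
  have hcong : ∀ {a b : SL(2, ℤ)}, a ∈ H → redHom M a = redHom M b → b ∈ H := fun {a b} ha h => by
    have : a⁻¹ * b ∈ H := hN (Or.inl (by rw [map_mul, map_inv, h, inv_mul_cancel]))
    simpa using mul_mem ha this
  obtain ⟨u, hu⟩ := hu
  set v : ℤ := ((u⁻¹ : (ZMod M)ˣ) : ZMod M).cast with hv'
  have hv : (v : ZMod M) = ((u⁻¹ : (ZMod M)ˣ) : ZMod M) := ZMod.intCast_zmod_cast _
  have huv : (u : ZMod M) * ((u⁻¹ : (ZMod M)ˣ) : ZMod M) = 1 := u.mul_inv
  set g' := T ^ (-(v * g 0 0)) * g * T ^ (-(v * g 1 1))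
  have hg' : g' ∈ H := mul_mem (mul_mem (zpow_mem hT _) hg) (zpow_mem hT _)
  have h00 : ((g' 0 0 : ℤ) : ZMod M) = 0 := by
    simp [g', coe_T_zpow, Matrix.mul_apply, Fin.sum_univ_two, Matrix.vecMul, dotProduct, ← hu, hv]
    linear_combination (-((g 0 0 : ℤ) : ZMod M)) * huv
  have h11 : ((g' 1 1 : ℤ) : ZMod M) = 0 := by
    simp [g', coe_T_zpow, Matrix.mul_apply, Fin.sum_univ_two, Matrix.vecMul, dotProduct, ← hu, hv]
  have h10 : ((g' 1 0 : ℤ) : ZMod M) = u := by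
    simp [g', coe_T_zpow, Matrix.mul_apply, Fin.sum_univ_two, Matrix.vecMul, dotProduct, ← hu]
  have hdet : -(((g' 0 1 : ℤ) : ZMod M) * u) = 1 := by
    have h := g'.2
    rw [Matrix.det_fin_two] at h
    have h2 := congrArg (Int.cast : ℤ → ZMod M) h
    push_cast at h2
    rwa [h00, h10, zero_mul, zero_sub] at h2
  have hL : lowerOne ∈ H := by
    refine hcong (mul_mem (mul_mem hg' (zpow_mem hT (-(v * v)))) (inv_mem hg')) ?_
    refine Subtype.ext (Matrix.ext fun i j => ?_)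
    rw [redHom_apply, redHom_apply]
    fin_cases i <;> fin_cases j <;>
      simp [coe_T_zpow, Matrix.mul_apply, Fin.sum_univ_two,
        Matrix.adjugate_fin_two, h00, h11, h10, hv]
    · linear_combination hdet
    · linear_combination hdet
  have hS : S ∈ H := by
    have e : S = T⁻¹ * lowerOne * T⁻¹ := by
      refine Subtype.ext (Matrix.ext fun i j => ?_)
      fin_cases i <;> fin_cases j <;>
        simp [coe_S, Matrix.mul_apply, Fin.sum_univ_two]
    rw [e]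
    exact mul_mem (mul_mem (inv_mem hT) hL) (inv_mem hT)
  rw [eq_top_iff, ← SpecialLinearGroup.SL2Z_generators, Subgroup.closure_le]
  rintro x (rfl | rfl) <;> assumption

variable [NeZero M]

omit [NeZero M] in
theorem index_Gamma00 : (Gamma00 M).index = M * (Gamma0 M).index := by
  have hle : Gamma00 M ≤ Gamma0 M := fun γ hγ => Gamma0_mem.2 hγ.2
  have hTmem : ∀ x : ℤ, (T ^ x : SL(2, ℤ)) ∈ Gamma0 M := fun x => by
    simp [Gamma0_mem, coe_T_zpow]
  rw [← Subgroup.relIndex_mul_index hle]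
  congr 1
  rw [Subgroup.relIndex, Subgroup.index]
  let f : ZMod M → Gamma0 M ⧸ (Gamma00 M).subgroupOf (Gamma0 M) := fun x =>
    QuotientGroup.mk ⟨T ^ (x.cast : ℤ), hTmem _⟩
  have hf : Function.Bijective f := by
    constructor
    · intro x y h
      rw [QuotientGroup.eq, Subgroup.mem_subgroupOf, mem_Gamma00] at h
      have h1 := h.1
      simp only [Subgroup.coe_mul, Subgroup.coe_inv, ← _root_.zpow_neg, ← _root_.zpow_add] at h1
      simp [coe_T_zpow] at h1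
      linear_combination -h1
    · intro q
      induction q using QuotientGroup.induction_on with
      | H γ =>
        obtain ⟨γ, hγ⟩ := γ
        refine ⟨((γ 0 1 : ℤ) : ZMod M) * ((γ 0 0 : ℤ) : ZMod M), ?_⟩
        rw [QuotientGroup.eq, Subgroup.mem_subgroupOf, mem_Gamma00]
        have hc : ((γ 1 0 : ℤ) : ZMod M) = 0 := Gamma0_mem.1 hγ
        have hd := diag_mul_eq_one hc
        simp only [Subgroup.coe_mul, Subgroup.coe_inv, ← _root_.zpow_neg]
        simp [coe_T_zpow, Matrix.mul_apply, Fin.sum_univ_two, hc]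
        linear_combination (-((γ 0 1 : ℤ) : ZMod M)) * hd
  exact (Nat.card_eq_of_bijective f hf).symm.trans (Nat.card_zmod M)

theorem psi_sq : Igusa.psi (M ^ 2) = M * Igusa.psi M := by
  conv_rhs => arg 1; rw [← Nat.prod_factorization_pow_eq_self (NeZero.ne M)]
  rw [Igusa.psi, Igusa.psi, Nat.factorization_pow, Finsupp.prod, Finsupp.prod, Finsupp.prod,
    Finsupp.support_smul_eq two_ne_zero, ← Finset.prod_mul_distrib]
  refine Finset.prod_congr rfl fun p hp => ?_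
  obtain ⟨e, he⟩ := Nat.exists_eq_succ_of_ne_zero (Finsupp.mem_support_iff.1 hp)
  rw [Finsupp.smul_apply, he, smul_eq_mul, show 2 * (e + 1) - 1 = (e + 1) + e by omega,
    Nat.succ_sub_one, Nat.succ_eq_add_one, pow_add]
  ring

theorem index_Gamma00_eq_psi : (Gamma00 M).index = Igusa.psi (M ^ 2) := by
  rw [index_Gamma00, psi_sq, Grp.index_Gamma0_eq, LoweringAtP.Model.psi_eq_dedekindPsi
    (NeZero.ne M)]

/-- Conjugation by `diag(M, 1)`. -/
def downFn (γ : Gamma0 (M ^ 2)) : Gamma00 M :=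
  have hc : ((M : ℤ) ^ 2) ∣ (γ : SL(2, ℤ)) 1 0 := by
    have := (ZMod.intCast_zmod_eq_zero_iff_dvd _ _).1 (Gamma0_mem.1 γ.2)
    exact_mod_cast this
  ⟨⟨!![(γ : SL(2, ℤ)) 0 0, M * (γ : SL(2, ℤ)) 0 1;
      (γ : SL(2, ℤ)) 1 0 / M, (γ : SL(2, ℤ)) 1 1], by
    have h := (γ : SL(2, ℤ)).2
    rw [Matrix.det_fin_two] at h
    rw [Matrix.det_fin_two_of, mul_assoc, mul_comm ((γ : SL(2, ℤ)) 0 1), ← mul_assoc,
      Int.mul_ediv_cancel' ((dvd_pow_self _ two_ne_zero).trans hc)]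
    linear_combination h⟩, by
    refine mem_Gamma00.2 ⟨by simp, ?_⟩
    obtain ⟨c, hc⟩ := hc
    simp [hc, sq, mul_assoc, Int.mul_ediv_cancel_left _ (NeZero.ne (M : ℤ))]⟩

theorem coe_downFn (γ : Gamma0 (M ^ 2)) :
    ((downFn γ : SL(2, ℤ)) : Matrix (Fin 2) (Fin 2) ℤ) =
      !![(γ : SL(2, ℤ)) 0 0, M * (γ : SL(2, ℤ)) 0 1;
        (γ : SL(2, ℤ)) 1 0 / M, (γ : SL(2, ℤ)) 1 1] := rfl

theorem downFn_bijective : Function.Bijective (downFn (M := M)) := by
  have hM : (M : ℤ) ≠ 0 := NeZero.ne (M : ℤ)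
  refine ⟨fun γ δ h => ?_, fun γ => ?_⟩
  · have hdvd : ∀ γ : Gamma0 (M ^ 2), (M : ℤ) ∣ (γ : SL(2, ℤ)) 1 0 := fun γ => by
      have := (ZMod.intCast_zmod_eq_zero_iff_dvd _ _).1 (Gamma0_mem.1 γ.2)
      exact (Int.natCast_dvd_natCast.2 (dvd_pow_self M two_ne_zero)).trans this
    have h' : ∀ i j, ((downFn γ : SL(2, ℤ))) i j = (downFn δ : SL(2, ℤ)) i j := fun i j => by rw [h]
    refine Subtype.ext (Subtype.ext (Matrix.ext fun i j => ?_))
    fin_cases i <;> fin_cases j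
    · exact h' 0 0
    · exact mul_left_cancel₀ hM (h' 0 1)
    · exact (Int.ediv_left_inj (hdvd γ) (hdvd δ)).1 (h' 1 0)
    · exact h' 1 1
  · obtain ⟨γ, hb, hc⟩ := γ
    rw [ZMod.intCast_zmod_eq_zero_iff_dvd] at hb hc
    obtain ⟨b, hb'⟩ := hb
    obtain ⟨c, hc'⟩ := hc
    have hdet := γ.2
    rw [Matrix.det_fin_two, hb', hc'] at hdet
    refine ⟨⟨⟨!![γ 0 0, b; M * M * c, γ 1 1], by
      rw [Matrix.det_fin_two_of]; linear_combination hdet⟩, by
      refine Gamma0_mem.2 ((ZMod.intCast_zmod_eq_zero_iff_dvd _ _).2 ⟨c, ?_⟩)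
      simp [sq]⟩, ?_⟩
    refine Subtype.ext (Subtype.ext (Matrix.ext fun i j => ?_))
    fin_cases i <;> fin_cases j <;>
      simp [coe_downFn, hb', hc', mul_assoc, Int.mul_ediv_cancel_left _ hM]

theorem downFn_mul (γ δ : Gamma0 (M ^ 2)) : downFn (γ * δ) = downFn γ * downFn δ := by
  have hM : (M : ℤ) ≠ 0 := NeZero.ne (M : ℤ)
  obtain ⟨c, hc⟩ := (Int.natCast_dvd_natCast.2 (dvd_pow_self M two_ne_zero)).trans
    ((ZMod.intCast_zmod_eq_zero_iff_dvd _ _).1 (Gamma0_mem.1 γ.2))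
  obtain ⟨c', hc'⟩ := (Int.natCast_dvd_natCast.2 (dvd_pow_self M two_ne_zero)).trans
    ((ZMod.intCast_zmod_eq_zero_iff_dvd _ _).1 (Gamma0_mem.1 δ.2))
  refine Subtype.ext (Subtype.ext (Matrix.ext fun i j => ?_))
  fin_cases i <;> fin_cases j <;>
    simp [coe_downFn, Matrix.mul_apply, Fin.sum_univ_two, hc, hc', mul_assoc,
      Int.mul_ediv_cancel_left _ hM] <;> try ring1
  exact Int.ediv_eq_of_eq_mul_right hM (by ring)

/-- `GTc M` and `GT M` have the same index. -/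
theorem index_GTc : (GTc M).index = (GT M).index := by
  have h1 : GTc M ≤ Gamma00 M := fun _ h => h.1
  have h2 : GT M ≤ Gamma0 (M ^ 2) := fun _ h => h.1
  have hM2 : NeZero (M ^ 2) := ⟨pow_ne_zero 2 (NeZero.ne M)⟩
  have hidx : (Gamma00 M).index = (Gamma0 (M ^ 2)).index := by
    rw [index_Gamma00_eq_psi, LoweringAtP.Model.psi_eq_dedekindPsi hM2.ne, Grp.index_Gamma0_eq]
  rw [← Subgroup.relIndex_mul_index h1, ← Subgroup.relIndex_mul_index h2, hidx]
  congr 1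
  let e : Gamma0 (M ^ 2) ≃* Gamma00 M :=
    MulEquiv.mk' (Equiv.ofBijective _ downFn_bijective) downFn_mul
  rw [Subgroup.relIndex, Subgroup.relIndex,
    ← Subgroup.index_comap_of_surjective _ (f := e.toMonoidHom) e.surjective]
  congr 1
  ext γ
  simp only [Subgroup.mem_comap, Subgroup.mem_subgroupOf, mem_GTc, mem_GT]
  refine ⟨fun h => ⟨γ.2, ?_⟩, fun h => ⟨(e γ).2, ?_⟩⟩
  · exact h.2
  · exact h.2

end Fermat.Agent.WeightOneGalois.Field
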