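import Fermat.Agent.WeightOneGalois.Field.Ring

/-!
# The generators on the cosets and their expansions over `ℤ[ζ, 1/M]`

The translates of `G v E₄² / Δ` and of `j(eτ/e')` by `SL(2, ℤ)` have series over `ℤ[ζ, 1/M]`,
which are needed to compute the Galois group in every characteristic prime to `M`.
-/

noncomputable section

open UpperHalfPlane Function CongruenceSubgroup
open scoped MatrixGroups ModularForm Manifold Topology

namespace Fermat.Agent.WeightOneGalois.Field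

open Fermat.Agent.MF Fermat.Agent.Igusa ModularCurve

/-! ### Integral series -/

theorem deltaZ_eq : Eis.deltaZ = PowerSeries.X * dedekindEtaUnit := by
  refine Eis.toC_injective ?_
  rw [← sub_eq_zero]
  have h1 : Eis.IsOne 12 (Eis.toC (PowerSeries.X * dedekindEtaUnit)) :=
    ⟨isFormFn_delta.toLevelOne, by
      show qExpansion 1 deltaFn = _
      rw [qExpansion_delta, map_mul, PowerSeries.map_X]⟩
  have h := Eis.isOne_deltaZ.sub h1
  refine Eis.IsOne.eq_zero (k := 12) (by exact_mod_cast h) fun i hi => ?_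
  have : i ≤ 1 := hi
  have e : ∀ A : PowerSeries ℤ, PowerSeries.coeff i (Eis.toC A) =
      ((PowerSeries.coeff i A : ℤ) : ℂ) :=
    fun A => PowerSeries.coeff_map _ _ _
  rw [map_sub, e, e]
  interval_cases i
  · rw [Eis.coeff_zero_deltaZ, PowerSeries.coeff_zero_X_mul, sub_self]
  · rw [Eis.coeff_one_deltaZ, show (1 : ℕ) = 0 + 1 from rfl, PowerSeries.coeff_succ_X_mul,
      PowerSeries.coeff_zero_eq_constantCoeff_apply, constantCoeff_dedekindEtaUnit, sub_self]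

theorem weightFix_mul : weightFix * dedekindEtaUnit = Eis.e4 ^ 2 := by
  have h : (PowerSeries.mk fun n => PowerSeries.coeff (n + 1) Eis.deltaZ) = dedekindEtaUnit := by
    ext n
    rw [PowerSeries.coeff_mk, deltaZ_eq, PowerSeries.coeff_succ_X_mul]
  rw [weightFix, h, mul_assoc, mul_comm _ dedekindEtaUnit,
    PowerSeries.mul_invOfUnit _ 1 (by simp [constantCoeff_dedekindEtaUnit]), mul_one]

theorem constantCoeff_weightFix : PowerSeries.constantCoeff weightFix = 1 := by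
  have h := congrArg PowerSeries.constantCoeff weightFix_mul
  rwa [map_mul, constantCoeff_dedekindEtaUnit, mul_one, map_pow, Eis.constantCoeff_e4, one_pow] at h

/-- The weight correction `weightFix / q` times `Δ` is `E₄²`. -/
theorem weightFix_lq :
    (HahnSeries.single (-1 : ℤ) (1 : ℂ) *
      HahnSeries.ofPowerSeries ℤ ℂ (weightFix.map (Int.castRingHom ℂ))) * lq deltaFn =
        lq (E4fn ^ 2) := by
  rw [lq_pow isFormFn_E4.isQFnTop, lq_deltaFn, lq, qExpansion_E4, deltaSer, mul_mul_mul_comm,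
    HahnSeries.single_mul_single, ← map_mul, ← map_mul, weightFix_mul, map_pow, map_pow,
    neg_add_cancel, mul_one]
  have : Eis.e4 = eisenstein4 := by
    ext n
    rw [Eis.coeff_e4, eisenstein4, PowerSeries.coeff_mk, ArithmeticFunction.sigma_apply]
    push_cast
    rfl
  rw [this]
  simp

variable {M : ℕ}

section Series

variable {R S : Type*} [CommRing R] [CommRing S] (φ : R →+* S) {ζ : R}

theorem map_inverse_of_isUnit {u : R} (hu : IsUnit u) :
    φ (Ring.inverse u) = Ring.inverse (φ u) := by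
  obtain ⟨u, rfl⟩ := hu
  rw [Ring.inverse_unit, show φ u = ((Units.map (φ : R →* S) u : Sˣ) : S) from rfl,
    Ring.inverse_unit]
  rfl

/-- The constant term of `gSer` at the row `v` is defined in the ring. -/
def GoodRow (ζ : R) (v : ZMod M × ZMod M) : Prop := v.1 = 0 → IsUnit (1 - ζ ^ v.2.val)

theorem map_gSer {v : ZMod M × ZMod M} (hv : GoodRow ζ v) :
    (gSer R ζ v).map φ = gSer S (φ ζ) v := by
  ext n
  rw [PowerSeries.coeff_map, gSer, gSer, PowerSeries.coeff_mk, PowerSeries.coeff_mk]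
  rcases eq_or_ne n 0 with rfl | hn
  · rw [if_pos rfl, if_pos rfl]
    by_cases h : v.1 = 0
    · rw [if_pos h, if_pos h, map_mul, map_inverse_of_isUnit φ ((hv h).pow 4)]
      simp [map_ofNat]
    · rw [if_neg h, if_neg h, map_zero]
  · simp [if_neg hn, map_sum]

theorem coeffMap_yFam [NeZero M] {v : ZMod M × ZMod M} (hv : GoodRow ζ v) :
    coeffMap φ (yFam R ζ v) = yFam S (φ ζ) v := by
  rw [yFam, yFam, map_mul, coeffMap_ofPowerSeries, map_gSer φ hv, coeffMap_qExpand, map_mul,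
    coeffMap_single, map_one, coeffMap_ofPowerSeries, ← RingHom.comp_apply (PowerSeries.map φ),
    ← PowerSeries.map_comp, RingHom.ext_int (φ.comp (Int.castRingHom R)) (Int.castRingHom S)]

omit φ in
theorem gSer_snd_zero (ζ' : R) {v : ZMod M × ZMod M} (h1 : v.1 ≠ 0) (h2 : v.2 = 0) :
    gSer R ζ v = gSer R ζ' v := by
  ext n
  simp [gSer, h1, h2]

omit φ in
theorem yFam_snd_zero [NeZero M] (ζ' : R) {v : ZMod M × ZMod M} (h1 : v.1 ≠ 0) (h2 : v.2 = 0) :
    yFam R ζ v = yFam R ζ' v := by rw [yFam, yFam, gSer_snd_zero ζ' h1 h2]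

end Series

theorem rowMul_fst_zero (a : ZMod M) (γ : SL(2, ℤ)) :
    rowMul (a, 0) γ = (a * (γ 0 0 : ZMod M), a * (γ 0 1 : ZMod M)) := by
  simp [rowMul]

variable [NeZero M]

theorem goodRow_zetaA (hM : 2 ≤ M) {v : ZMod M × ZMod M} (hv : IsPrim v) :
    GoodRow (zetaA M) v := fun h => by
  refine isUnit_one_sub_pow M fun hd => ?_
  have : Fact (1 < M) := ⟨hM⟩
  have h2 : v.2 = 0 := by
    rw [← ZMod.natCast_zmod_val v.2, ZMod.natCast_eq_zero_iff]
    exact hd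
  obtain ⟨a, b, hab⟩ := hv
  rw [h, h2, mul_zero, mul_zero, add_zero] at hab
  exact zero_ne_one hab

/-! ### The functions `y` -/

/-- The value of `G v E₄²/Δ`. -/
def yFun (G : ZMod M × ZMod M → ℍ → ℂ) (v : ZMod M × ZMod M) : ℍ → ℂ :=
  fun τ => G v τ * (E4fn τ ^ 2 / deltaFn τ)

/-- The hypotheses on the Eisenstein family. -/
structure IsYFamily (G : ZMod M × ZMod M → ℍ → ℂ) : Prop where
  slash : ∀ v (γ : SL(2, ℤ)), IsPrim v → G v ∣[(4 : ℤ)] γ = G (rowMul v γ)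
  hol : ∀ v, IsPrim v → MDifferentiable 𝓘(ℂ) 𝓘(ℂ) (G v) ∧ IsBoundedAtImInfty (G v)
  sum : ∀ v, IsPrim v → ∀ τ : ℍ,
    HasSum (fun n : ℕ => PowerSeries.coeff n (gSer ℂ (zetaC M) v) *
      Function.Periodic.qParam (M : ℝ) (τ : ℂ) ^ n) (G v τ)

variable {G : ZMod M × ZMod M → ℍ → ℂ}

omit [NeZero M] in
theorem IsYFamily.yFun_smul (hG : IsYFamily G) {v : ZMod M × ZMod M} (hv : IsPrim v)
    (γ : SL(2, ℤ)) (τ : ℍ) : yFun G v (γ • τ) = yFun G (rowMul v γ) τ := by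
  have h1 := congrFun (hG.slash v γ hv) τ
  have h2 := congrFun (isFormFn_E4.slash_eq γ trivial) τ
  have h3 := congrFun (isFormFn_delta.slash_eq γ trivial) τ
  rw [ModularForm.SL_slash_apply] at h1 h2 h3
  rw [yFun, yFun, ← h1, ← h2, ← h3]
  have hd : denom (γ : GL (Fin 2) ℝ) τ ≠ 0 := denom_ne_zero _ _
  have hΔ := deltaFn_ne_zero (γ • τ)
  rw [zpow_neg, zpow_neg, zpow_ofNat, zpow_ofNat]
  field_simp

omit [NeZero M] in
theorem IsYFamily.G_neg (hG : IsYFamily G) {v : ZMod M × ZMod M} (hv : IsPrim v) :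
    G (-v) = G v := by
  have e : rowMul v (-1 : SL(2, ℤ)) = -v := by simp [rowMul, Prod.ext_iff]
  rw [← e, ← hG.slash v (-1) hv]
  ext τ
  rw [ModularForm.SL_slash_apply, ModularGroup.denom_apply]
  rw [show (-1 : SL(2, ℤ)) • τ = τ by simp]
  norm_num

omit [NeZero M] in
theorem IsYFamily.isUFn (hG : IsYFamily G) {v : ZMod M × ZMod M} (hv : IsPrim v) :
    IsUFn M (G v) := by
  refine isUFn_of_vadd (fun τ => ?_) (hG.hol v hv).1 (hG.hol v hv).2
  have h := congrFun (hG.slash v (ModularGroup.T ^ (M : ℤ)) hv) τ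
  rw [ModularForm.SL_slash_apply, UpperHalfPlane.modular_T_zpow_smul, ModularGroup.denom_apply,
    ModularGroup.coe_T_zpow, show rowMul v (ModularGroup.T ^ (M : ℤ)) = v by
      rw [rowMul, ModularGroup.coe_T_zpow]; simp] at h
  simpa using h

/-- The series of `G v E₄²/Δ`. -/
theorem IsYFamily.hasSer_yFun (hG : IsYFamily G) (hM : 2 ≤ M) {v : ZMod M × ZMod M}
    (hv : IsPrim v) : HasSer M (toC M) (yFun G v) (yFam (CRing M) (zetaA M) v) := by
  have hlp : lpHom M ⟨_, hG.isUFn hv⟩ =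
      HahnSeries.ofPowerSeries ℤ ℂ (gSer ℂ (zetaC M) v) := by
    rw [lpHom_apply]
    congr 1
    ext n
    exact (qExpansion_coeff_unique (F := UFun) (show UFun from G v)
      (by exact_mod_cast NeZero.pos M) (hG.isUFn hv).analyticAt
      (fun τ => by simp only [smul_eq_mul]; exact hG.sum v hv τ) n).symm
  obtain ⟨hmem, e⟩ := comp_affH_mem (M := M) (a := 1) (d := 1) (b := 0) (m := M) (by simp) 1
    (by simp) (isFormFn_E4.isQFnTop.pow 2) 1 (h := fun τ => E4fn τ ^ 2 / deltaFn τ)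
    fun τ => by
      have : affH 1 1 0 τ = τ := UpperHalfPlane.ext (by simp)
      rw [this, pow_one, div_mul_cancel₀ _ (deltaFn_ne_zero τ)]
      rfl
  refine ⟨(wSub M).mul_mem (goodSub_le_wSub (hG.isUFn hv)) hmem, ?_⟩
  have hmul : wLp M ⟨yFun G v, (wSub M).mul_mem (goodSub_le_wSub (hG.isUFn hv)) hmem⟩ =
      wLp M ⟨_, goodSub_le_wSub (hG.isUFn hv)⟩ * wLp M ⟨_, hmem⟩ := by
    rw [← map_mul]; rfl
  rw [hmul, coeffMap_yFam _ (goodRow_zetaA hM hv), toC_zetaA, yFam,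
    wLp_of_good ⟨_, hG.isUFn hv⟩, hlp]
  refine congrArg (HahnSeries.ofPowerSeries ℤ ℂ (gSer ℂ (zetaC M) v) * ·) ?_
  have hne : sub (1 : ℂˣ) M (deltaSer ℂ) ≠ 0 := deltaU_ne
  refine mul_right_cancel₀ hne ?_
  rw [pow_one] at e
  rw [e, sub_one_eq, sub_one_eq, ← map_mul]
  refine congrArg (qExpand ℂ M) ?_
  rw [← lq_deltaFn]
  exact weightFix_lq.symm

/-! ### The functions `j(eτ/M)` -/

theorem affH_smul_eq {e e' : ℕ} [NeZero e] [NeZero e'] {γ σ : SL(2, ℤ)} {a d : ℕ} [NeZero a]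
    [NeZero d] {b : ℤ} (h00 : (e : ℤ) * γ 0 0 = σ 0 0 * a) (h10 : (e' : ℤ) * γ 1 0 = σ 1 0 * a)
    (h01 : (e : ℤ) * γ 0 1 = σ 0 0 * b + σ 0 1 * d)
    (h11 : (e' : ℤ) * γ 1 1 = σ 1 0 * b + σ 1 1 * d) (τ : ℍ) :
    affH e e' 0 (γ • τ) = σ • affH a d b τ := by
  have hd : (d : ℂ) ≠ 0 := by exact_mod_cast NeZero.ne d
  have he : (e' : ℂ) ≠ 0 := by exact_mod_cast NeZero.ne e'
  have c00 : (e : ℂ) * ((γ 0 0 : ℤ) : ℂ) = σ 0 0 * a := by exact_mod_cast h00
  have c10 : (e' : ℂ) * ((γ 1 0 : ℤ) : ℂ) = σ 1 0 * a := by exact_mod_cast h10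
  have c01 : (e : ℂ) * ((γ 0 1 : ℤ) : ℂ) = σ 0 0 * b + σ 0 1 * d := by exact_mod_cast h01
  have c11 : (e' : ℂ) * ((γ 1 1 : ℤ) : ℂ) = σ 1 0 * b + σ 1 1 * d := by exact_mod_cast h11
  apply UpperHalfPlane.ext
  have h1 := denom_ne_zero (γ : GL (Fin 2) ℝ) τ
  have h2 := denom_ne_zero (σ : GL (Fin 2) ℝ) (affH a d b τ)
  rw [ModularGroup.denom_apply] at h1 h2
  rw [coe_affH, coe_specialLinearGroup_apply, coe_specialLinearGroup_apply]
  simp only [algebraMap_int_eq, eq_intCast, Complex.ofReal_intCast, coe_affH, Int.cast_zero,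
    add_zero] at h2 ⊢
  have hnum : (e : ℂ) * (((γ 0 0 : ℤ) : ℂ) * τ + ((γ 0 1 : ℤ) : ℂ)) =
      σ 0 0 * ((a : ℂ) * τ + b) + σ 0 1 * d := by
    linear_combination (τ : ℂ) * c00 + c01
  have hden : (e' : ℂ) * (((γ 1 0 : ℤ) : ℂ) * τ + ((γ 1 1 : ℤ) : ℂ)) =
      σ 1 0 * ((a : ℂ) * τ + b) + σ 1 1 * d := by
    linear_combination (τ : ℂ) * c10 + c11
  rw [← mul_div_assoc, hnum, div_div, mul_comm _ (e' : ℂ), hden]
  field_simp

theorem exists_upper {p q r s : ℤ} {n : ℕ} (hn : 0 < n) (hdet : p * s - q * r = n) :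
    ∃ (σ : SL(2, ℤ)) (a d : ℕ) (b : ℤ), NeZero a ∧ NeZero d ∧ a * d = n ∧ p = σ 0 0 * a ∧
      r = σ 1 0 * a ∧ q = σ 0 0 * b + σ 0 1 * d ∧ s = σ 1 0 * b + σ 1 1 * d := by
  have hg : 0 < Int.gcd p r := by
    rw [Int.gcd_pos_iff]
    by_contra h
    push Not at h
    rw [h.1, h.2] at hdet
    simp at hdet
    omega
  obtain ⟨u, v, hco, hu, hv⟩ := Int.exists_gcd_one hg
  obtain ⟨σ, hσ0, hσ1⟩ := (Int.isCoprime_iff_gcd_eq_one.mpr hco).exists_SL2_col (0 : Fin 2)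
  have hσdet : σ 0 0 * σ 1 1 - σ 0 1 * σ 1 0 = 1 := by
    rw [← Matrix.det_fin_two]; exact σ.2
  set a := Int.gcd p r
  rw [← hσ0] at hu
  rw [← hσ1] at hv
  set d : ℤ := -σ 1 0 * q + σ 0 0 * s with hd
  have had : (a : ℤ) * d = n := by
    linear_combination hdet + (-s) * hu + q * hv
  have hdpos : 0 < d := by
    refine pos_of_mul_pos_right ?_ (Int.natCast_nonneg a)
    rw [had]; exact_mod_cast hn
  refine ⟨σ, a, d.toNat, σ 1 1 * q - σ 0 1 * s, ⟨hg.ne'⟩, ⟨by omega⟩, ?_, hu, hv, ?_, ?_⟩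
  · have : ((a * d.toNat : ℕ) : ℤ) = n := by
      push_cast [Int.toNat_of_nonneg hdpos.le]; exact had
    exact_mod_cast this
  · rw [Int.toNat_of_nonneg hdpos.le]; linear_combination (-q) * hσdet
  · rw [Int.toNat_of_nonneg hdpos.le]; linear_combination (-s) * hσdet

variable (M) in
theorem toC_zpow (i : ℤ) :
    toC M ((zetaAU M ^ i : (CRing M)ˣ) : CRing M) =
      Complex.exp (2 * Real.pi * Complex.I * i / M) := by
  have h : Units.map (toC M : CRing M →* ℂ) (zetaAU M ^ i) = zetaU M ^ i := by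
    rw [map_zpow]; exact congrArg (· ^ i) (Units.ext (toC_zetaA M))
  have h2 := congrArg Units.val h
  rw [Units.val_zpow_eq_zpow_val] at h2
  refine h2.trans ?_
  show Complex.exp _ ^ i = _
  rw [← Complex.exp_int_mul]
  ring_nf

/-- The series of `j(eτ/e')` on a coset. -/
theorem exists_hasSer_jCoset {e e' : ℕ} [NeZero e] [NeZero e'] (hd : e * e' ∣ M) (γ : SL(2, ℤ)) :
    ∃ (σ : SL(2, ℤ)) (a d : ℕ) (b : ℤ), a * d = e * e' ∧ (e : ℤ) * γ 0 0 = σ 0 0 * a ∧
      (e' : ℤ) * γ 1 0 = σ 1 0 * a ∧ (e : ℤ) * γ 0 1 = σ 0 0 * b + σ 0 1 * d ∧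
      HasSer M (toC M) (fun τ => jFun (affH e e' 0 (γ • τ)))
        (jv (zetaAU M ^ ((M / d : ℕ) * b)) (M / d * a)) := by
  have hdet : (e : ℤ) * γ 0 0 * (e' * γ 1 1) - e * γ 0 1 * (e' * γ 1 0) = ((e * e' : ℕ) : ℤ) := by
    have h := γ.2
    rw [Matrix.det_fin_two] at h
    push_cast
    linear_combination (e : ℤ) * e' * h
  obtain ⟨σ, a, d, b, ha, hd0, had, h00, h10, h01, h11⟩ :=
    exists_upper (Nat.mul_pos (NeZero.pos e) (NeZero.pos e')) hdet
  refine ⟨σ, a, d, b, had, h00, h10, h01, ?_⟩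
  have hdM : d ∣ M := (Dvd.intro_left a had).trans hd
  have hfun : (fun τ => jFun (affH e e' 0 (γ • τ))) = fun τ => jFun (affH a d b τ) :=
    funext fun τ => by rw [affH_smul_eq h00 h10 h01 h11, jFun_smul']
  rw [hfun]
  refine hasSer_jFun_affH (by rw [← mul_assoc, Nat.mul_div_cancel' hdM]) _ ?_
  rw [toC_zpow]
  congr 1
  obtain ⟨m, hm⟩ := hdM
  rw [hm, Nat.mul_div_cancel_left _ (NeZero.pos d)]
  have hm0 : (m : ℂ) ≠ 0 := by
    exact_mod_cast fun h => NeZero.ne M (by rw [hm, h, mul_zero])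
  have hd1 : (d : ℂ) ≠ 0 := by exact_mod_cast NeZero.ne d
  push_cast
  field_simp

end Fermat.Agent.WeightOneGalois.Field
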