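import Fermat.Agent.MF.FunctionField
import Fermat.Agent.WeightOneGalois.Field.Group
import Fermat.Agent.WeightOneGalois.Field.Series
import Fermat.Agent.WeightOneGalois.Interface

/-!
# Ratios of forms of equal weight on `GT M`

These ratios form a field containing the generators of `FY M`; this is one inclusion of the
analytic description `FieldC`.
-/

noncomputable section

open UpperHalfPlane Function CongruenceSubgroup
open scoped MatrixGroups ModularForm Manifold Topology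

namespace Fermat.Agent.WeightOneGalois.Field

open Fermat.Agent.MF Fermat.Agent.Igusa ModularCurve

variable (M : ℕ) [NeZero M]

variable {M}

omit [NeZero M] in
theorem isQFn_of_GT {k : ℤ} {f : ℍ → ℂ} (hf : IsFormFn (GT M) k f) : IsQFn f :=
  hf.isQFn (T_mem_GT M)

variable (M) in
/-- The field of ratios of forms of equal weight on `GT M`. -/
def ratioGT : IntermediateField ℂ (LaurentSeries ℂ) :=
  ratioSub (GT M) (T_mem_GT M)

omit [NeZero M] in
theorem GT_le_Gamma0 : GT M ≤ Gamma0 (M ^ 2) := fun _ h => h.1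

/-- `f (Mτ)` is a form on `GT M`. -/
theorem comp_scale_GT {k : ℤ} {f : ℍ → ℂ} (hf : IsFormFn (GTc M) k f) :
    IsFormFn (GT M) k (f ∘ scale M) where
  slash_eq γ hγ := by
    have hc : (M : ℤ) ∣ γ 1 0 :=
      (Int.natCast_dvd_natCast.2 (dvd_pow_self M two_ne_zero)).trans
        ((ZMod.intCast_zmod_eq_zero_iff_dvd _ _).1 (Gamma0_mem.1 hγ.1))
    set σ := downFn ⟨γ, hγ.1⟩
    have hH : IsHermite M γ (σ : SL(2, ℤ)) M 1 0 :=
      ⟨mul_one _, by simp [σ, coe_downFn, mul_comm],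
        by simp [σ, coe_downFn, Int.ediv_mul_cancel hc],
        by simp [σ, coe_downFn], by simp [σ, coe_downFn]⟩
    have hσ : (σ : SL(2, ℤ)) ∈ GTc M :=
      mem_GTc.2 ⟨σ.2, by simpa [σ, coe_downFn] using hγ.2⟩
    rw [slash_scale hH, hf.slash_eq _ hσ]
    simp [scale]
  mdiff := mdiff_affH M 1 0 hf.mdiff
  bdd γ := by
    obtain ⟨σ, a, d, b, ha, hd, hH⟩ := exists_hermite M γ
    rw [slash_scale hH]
    exact ((hf.bdd σ).comp_tendsto (tendsto_affH a d b)).const_smul_left _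

variable {G : ZMod M × ZMod M → ℍ → ℂ}

omit [NeZero M] in
theorem IsYFamily.isFormFn (hG : IsYFamily G) (x : (ZMod M)ˣ) :
    IsFormFn (GTc M) 4 (G ((x : ZMod M), 0)) where
  slash_eq γ hγ := by
    obtain ⟨⟨h01, h10⟩, hd⟩ := hγ
    have hdet := diag_mul_eq_one h10
    rw [hG.slash _ γ (isPrim_units x), rowMul_fst_zero, h01, mul_zero]
    rcases hd with hd | hd <;> rw [hd] at hdet
    · rw [mul_one] at hdet
      rw [hdet, mul_one]
    · rw [show ((γ 0 0 : ℤ) : ZMod M) = -1 by linear_combination -hdet, mul_neg, mul_one,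
        show ((-(x : ZMod M)), (0 : ZMod M)) = -((x : ZMod M), 0) by simp, hG.G_neg
            (isPrim_units x)]
  mdiff := (hG.hol _ (isPrim_units x)).1
  bdd γ := by
    rw [hG.slash _ γ (isPrim_units x)]
    exact (hG.hol _ (isPrim_rowMul (isPrim_units x) γ)).2

/-- Slashing `G (x, 0) (Mτ)` by `Γ₀(M²)` multiplies `x` by the upper left entry. -/
theorem IsYFamily.scale_slash (hG : IsYFamily G) (x : (ZMod M)ˣ) {σ : SL(2, ℤ)}
    (hσ : σ ∈ Gamma0 (M ^ 2)) :
    (G ((x : ZMod M), 0) ∘ scale M) ∣[(4 : ℤ)] σ =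
      G ((x : ZMod M) * (σ 0 0 : ZMod M), 0) ∘ scale M := by
  obtain ⟨c, hc⟩ := (dvd_pow_self (M : ℤ) two_ne_zero).trans (dvd_apply_one_zero hσ)
  have hdet := σ.2
  rw [Matrix.det_fin_two, hc] at hdet
  let τ : SL(2, ℤ) := ⟨!![σ 0 0, M * σ 0 1; c, σ 1 1], by
    rw [Matrix.det_fin_two_of]; linear_combination hdet⟩
  have hH : IsHermite M σ τ M 1 0 :=
    ⟨by simp, by simp [τ, mul_comm], by simp [τ, hc, mul_comm], by simp [τ], by simp [τ]⟩
  rw [slash_scale hH, hG.slash _ _ (isPrim_units x), Nat.cast_one, one_zpow, one_smul,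
    show rowMul ((x : ZMod M), (0 : ZMod M)) τ = ((x : ZMod M) * (σ 0 0 : ZMod M), 0) by
      ext <;> simp [rowMul, τ]]
  rfl

theorem IsYFamily.lq_scale (hG : IsYFamily G) (hM : 2 ≤ M) (x : (ZMod M)ˣ) :
    lq (G ((x : ZMod M), 0) ∘ scale M) =
      HahnSeries.ofPowerSeries ℤ ℂ (gSer ℂ 1 ((x : ZMod M), 0)) := by
  have : Fact (1 < M) := ⟨hM⟩
  rw [gSer_snd_zero (zetaC M) (v := ((x : ZMod M), 0)) x.ne_zero rfl, lq]
  congr 1
  ext n
  have hq := isQFn_of_GT (comp_scale_GT (hG.isFormFn x))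
  have hsum : ∀ τ : ℍ, HasSum (fun m : ℕ =>
      PowerSeries.coeff m (gSer ℂ (zetaC M) ((x : ZMod M), 0)) • Periodic.qParam 1 (τ : ℂ) ^ m)
      ((G ((x : ZMod M), 0) ∘ scale M) τ) := fun τ => by
    have h := hG.sum _ (isPrim_units x) (scale M τ)
    have e : Periodic.qParam (M : ℝ) (scale M τ : ℂ) = Periodic.qParam 1 (τ : ℂ) := by
      have hM0 : (M : ℂ) ≠ 0 := Nat.cast_ne_zero.2 (NeZero.ne M)
      simp only [Periodic.qParam, coe_scale]
      congr 1
      push_cast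
      field_simp
    rw [e] at h
    simp only [smul_eq_mul]
    exact h
  exact (qExpansion_coeff_unique (F := UFun) (show UFun from G ((x : ZMod M), 0) ∘ scale M)
    one_pos hq.analyticAt hsum n).symm

theorem IsYFamily.isRatioGT (hG : IsYFamily G) (hM : 2 ≤ M) (x : (ZMod M)ˣ) :
    IsRatioGT M (yFam ℂ 1 ((x : ZMod M), 0)) := by
  have h1 := comp_scale_GT (hG.isFormFn x)
  have h2 : IsFormFn (GT M) 8 ((E4fn ^ 2) ∘ scale M) :=
    ((((isFormFn_E4.pow 2).cast (by norm_num)).comp_scale_top M).mono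
      (Gamma0_le_of_dvd (dvd_pow_self M two_ne_zero))).mono GT_le_Gamma0
  have hd : IsFormFn (GT M) 12 (deltaFn ∘ scale M) :=
    (((isFormFn_delta).comp_scale_top M).mono
      (Gamma0_le_of_dvd (dvd_pow_self M two_ne_zero))).mono GT_le_Gamma0
  refine ⟨12, (G ((x : ZMod M), 0) ∘ scale M) * ((E4fn ^ 2) ∘ scale M), deltaFn ∘ scale M,
    (h1.mul h2).cast (by norm_num), hd, fun h0 => deltaFn_ne_zero _ (congrFun h0 I), ?_⟩
  rw [lq_mul (isQFn_of_GT h1) (isQFn_of_GT h2), hG.lq_scale hM x, yFam, mul_assoc]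
  congr 1
  rw [lq_comp_scale isFormFn_delta.isQFnTop, lq_comp_scale (isFormFn_E4.isQFnTop.pow 2), ← map_mul,
    weightFix_lq]

end Fermat.Agent.WeightOneGalois.Field
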