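import Fermat.Agent.WeightOneGalois.Field.Complex

/-!
# The field of the curve of `GT M`

Collects the results on this field: `Fermat.Agent.WeightOneGalois.Field.fieldDegree` and
`Fermat.Agent.WeightOneGalois.Field.fieldC`.
-/
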