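import Fermat.Agent.WeightOneGalois.Field.Degree
import Fermat.Agent.WeightOneGalois.Field.Ratio

/-!
# The field of the curve of `GT M` over `ℂ` consists of the ratios of forms

Proves `FieldC` from the Eisenstein family `YForms`: a series lies in the field over `ℂ` exactly
when it is a ratio of two forms of equal weight on `GT M`.
-/

noncomputable section

open UpperHalfPlane Function IntermediateField
open scoped MatrixGroups ModularForm Manifold Topology

namespace Fermat.Agent.WeightOneGalois.Field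

open Fermat.Agent.MF Fermat.Agent.Igusa ModularCurve

variable {M : ℕ} [NeZero M]

/-- The generated field consists of ratios of forms. -/
theorem FYres_le_ratioGT (hY : YForms) (hM : 4 ≤ M) : FYres M ℂ ≤ ratioGT M := by
  obtain ⟨G, hG⟩ := exists_isYFamily hY hM
  rw [FYres_eq_adjoin, IntermediateField.adjoin_le_iff]
  rintro x (hx | ⟨a, rfl⟩)
  · have hx' : x ∈ modularFunctionFieldFullC ℂ (M ^ 2) := IntermediateField.subset_adjoin ℂ _ hx
    obtain ⟨k, f, g, hf, hg, hg0, h⟩ := modularFunctionFieldFullC_le_ratioField (M ^ 2) hx'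
    exact ⟨k, f, g, hf.mono GT_le_Gamma0, hg.mono GT_le_Gamma0, hg0, h⟩
  · exact hG.isRatioGT (by omega) a

/-! ### Forms on `GT M` in the variable `t` -/

/-- `(F / Δ^e)(τ / M)`. -/
def downRatio (M : ℕ) [NeZero M] (F : ℍ → ℂ) (e : ℕ) : ℍ → ℂ :=
  fun τ => F (affH 1 M 0 τ) / deltaFn (affH 1 M 0 τ) ^ e

theorem ratio_smul {e : ℕ} (F : ℍ → ℂ) (σ : SL(2, ℤ)) (z : ℍ) :
    F (σ • z) / deltaFn (σ • z) ^ e = (F ∣[(12 * e : ℤ)] σ) z / deltaFn z ^ e := by
  have h1 := congrFun ((isFormFn_delta.pow e).slash_eq σ trivial) z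
  rw [ModularForm.SL_slash_apply, Pi.pow_apply, Pi.pow_apply, mul_comm (e : ℤ) 12] at h1
  rw [ModularForm.SL_slash_apply, ← h1,
    mul_div_mul_right _ _ (zpow_ne_zero _ (denom_ne_zero _ _))]

theorem downRatio_smul {F : ℍ → ℂ} {e : ℕ} (hF : IsFormFn (GT M) (12 * e : ℤ) F) {γ : SL(2, ℤ)}
    (hγ : γ ∈ GTc M) (τ : ℍ) : downRatio M F e (γ • τ) = downRatio M F e τ := by
  obtain ⟨⟨hb, hc⟩, hd⟩ := hγ
  rw [ZMod.intCast_zmod_eq_zero_iff_dvd] at hb hc
  obtain ⟨b, hb⟩ := hb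
  obtain ⟨c, hc⟩ := hc
  have hdet := γ.2
  rw [Matrix.det_fin_two, hb, hc] at hdet
  let σ : SL(2, ℤ) := ⟨!![γ 0 0, b; M * M * c, γ 1 1], by
    rw [Matrix.det_fin_two_of]
    linear_combination hdet⟩
  have hσ : σ ∈ GT M := mem_GT.2 ⟨CongruenceSubgroup.Gamma0_mem.2
    ((ZMod.intCast_zmod_eq_zero_iff_dvd _ _).2 ⟨c, by simp [σ, sq]⟩), hd⟩
  simp only [downRatio]
  rw [affH_smul_eq (e := 1) (e' := M) (γ := γ) (σ := σ) (a := 1) (d := M) (b := 0) (by simp [σ])
    (by simp [σ, hc, mul_assoc]) (by simp [σ, hb, mul_comm]) (by simp [σ, mul_comm]),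
    ratio_smul, hF.slash_eq σ hσ]

theorem downRatio_mem {F : ℍ → ℂ} {e : ℕ} (hF : IsFormFn (GT M) (12 * e : ℤ) F) (γ : SL(2, ℤ)) :
    (fun τ => downRatio M F e (γ • τ)) ∈ wSub M := by
  have hdet : γ 0 0 * ((M : ℤ) * γ 1 1) - γ 0 1 * (M * γ 1 0) = (M : ℕ) := by
    have h := γ.2
    rw [Matrix.det_fin_two] at h
    linear_combination (M : ℤ) * h
  obtain ⟨σ, a, d, b, ha, hd0, -, h00, h10, h01, h11⟩ := exists_upper (NeZero.pos M) hdet
  set F' := F ∣[(12 * e : ℤ)] σ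
  have hfun : ∀ τ, downRatio M F e (γ • τ) =
      F' (affH a d b τ) / deltaFn (affH a d b τ) ^ e := fun τ => by
    simp only [downRatio]
    rw [affH_smul_eq (e := 1) (e' := M) (γ := γ) (σ := σ) (by simpa using h00) h10
      (by simpa using h01) h11, ratio_smul]
  refine ⟨a * e, ?_⟩
  have hper : ∀ τ : ℍ, downRatio M F e (γ • ((M : ℝ) +ᵥ τ)) = downRatio M F e (γ • τ) := fun τ => by
    rw [show ((M : ℝ) +ᵥ τ) = (ModularGroup.T ^ (M : ℤ)) • τ by
        rw [UpperHalfPlane.modular_T_zpow_smul]; simp,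
      ← mul_smul, show γ * ModularGroup.T ^ (M : ℤ) = (γ * ModularGroup.T ^ (M : ℤ) * γ⁻¹) * γ by
        group, mul_smul]
    refine downRatio_smul hF (pmGamma_le_GTc (normal_pmGamma.conj_mem _ ?_ γ)) _
    rw [mem_pmGamma_iff, ModularGroup.coe_T_zpow]
    simp
  have hprod : (fun τ => downRatio M F e (γ • τ)) * deltaFn ^ (a * e) =
      (F' ∘ affH a d b) * (fun τ => deltaFn τ ^ a / deltaFn (affH a d b τ)) ^ e := by
    funext τ
    have h0 := pow_ne_zero e (deltaFn_ne_zero (affH a d b τ))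
    simp only [Pi.mul_apply, Pi.pow_apply, comp_apply, hfun, div_pow, ← pow_mul]
    field_simp
  refine isUFn_of_vadd (fun τ => ?_) ?_ ?_
  · have hΔ : deltaFn ((M : ℝ) +ᵥ τ) = deltaFn τ := by
      simpa using apply_vadd_nat isFormFn_delta.isQFnTop τ M
    simp only [Pi.mul_apply, Pi.pow_apply, hΔ, hper]
  · rw [hprod]
    have hF' : MDifferentiable 𝓘(ℂ) 𝓘(ℂ) F' := (hF.mdiff).slash _ _
    refine (mdiff_affH a d b hF').mul ?_
    have e' : (fun τ => deltaFn τ ^ a / deltaFn (affH a d b τ)) =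
        deltaFn ^ a / (deltaFn ∘ affH a d b) := rfl
    rw [e']
    exact (mdiff_div (isFormFn_delta.pow a).mdiff (mdiff_affH a d b isFormFn_delta.mdiff)
      fun τ => deltaFn_ne_zero _).pow e
  · rw [hprod]
    have h1 : IsBoundedAtImInfty (F' ∘ affH a d b) :=
      (hF.bdd σ).comp_tendsto (tendsto_affH a d b)
    refine h1.mul ?_
    have hpow : ∀ {φ : ℍ → ℂ}, IsBoundedAtImInfty φ → ∀ k : ℕ, IsBoundedAtImInfty (φ ^ k) := by
      intro φ hφ k
      induction k with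
      | zero => rw [pow_zero]; exact Filter.const_boundedAtFilter _ (1 : ℂ)
      | succ k ih =>
        rw [pow_succ]
        exact ih.mul hφ
    exact hpow (isBounded_delta_div a d b) e

omit [NeZero M] in
theorem coeffMap_id_apply (F : LaurentSeries ℂ) : coeffMap (RingHom.id ℂ) F = F := by
  ext n; simp

/-- The family of the generators and one more function. -/
def extFun (G : ZMod M × ZMod M → ℍ → ℂ) (F : ℍ → ℂ) (e : ℕ) : Gen M ⊕ Unit → ℍ → ℂ :=
  Sum.elim (baseFun G) fun _ => downRatio M F e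

theorem pmInv_extFun {G : ZMod M × ZMod M → ℍ → ℂ} (hG : IsYFamily G) {F : ℍ → ℂ} {e : ℕ}
    (hF : IsFormFn (GT M) (12 * e : ℤ) F) : PmInv (M := M) (extFun G F e) := by
  rintro (i | i) γ hγ τ
  · exact pmInv_baseFun hG i γ hγ τ
  · exact downRatio_smul hF (pmGamma_le_GTc hγ) τ

theorem extFun_mem {G : ZMod M × ZMod M → ℍ → ℂ} (hG : IsYFamily G) (hM : 2 ≤ M) {F : ℍ → ℂ}
    {e : ℕ} (hF : IsFormFn (GT M) (12 * e : ℤ) F) (x : (Gen M ⊕ Unit) × GQ M) :
    fG (extFun G F e) x ∈ wSub M := by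
  obtain ⟨i | i, q⟩ := x
  · exact (exists_hasSer_baseFun hG hM i q.out).choose_spec.1
  · exact downRatio_mem hF q.out

/-- The series of the family. -/
def extSer {G : ZMod M × ZMod M → ℍ → ℂ} (hG : IsYFamily G) (hM : 2 ≤ M) {F : ℍ → ℂ}
    {e : ℕ} (hF : IsFormFn (GT M) (12 * e : ℤ) F) (x : (Gen M ⊕ Unit) × GQ M) : LaurentSeries ℂ :=
  wLp M ⟨fG (extFun G F e) x, extFun_mem hG hM hF x⟩

theorem famData_ext {G : ZMod M × ZMod M → ℍ → ℂ} (hG : IsYFamily G) (hM : 4 ≤ M) {F : ℍ → ℂ}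
    {e : ℕ} (hF : IsFormFn (GT M) (12 * e : ℤ) F) :
    FamData G (RingHom.id ℂ) (extFun G F e) (extSer hG (by omega) hF) Sum.inl (toC M)
      (RingHom.id ℂ) :=
  { fam := hG, four_le := hM, inj := fun _ _ h => h, compat := RingHom.id_comp _
    pm := pmInv_extFun hG hF, ser := fun x => ⟨_, (coeffMap_id_apply _).symm⟩
    incl_eq := fun _ => rfl, char := Nat.cast_ne_zero.2 (NeZero.ne M)
    prim := by rw [RingHom.id_apply, toC_zetaA]; exact isPrimitiveRoot_zetaC M }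

/-- The expansion of a form of weight `12 e` divided by `Δ^e` lies in the generated field. -/
theorem exists_series_downRatio (hY : YForms) (hM : 4 ≤ M) {F : ℍ → ℂ} {e : ℕ}
    (hF : IsFormFn (GT M) (12 * e : ℤ) F) :
    ∃ L ∈ FYres M ℂ, L * deltaSer ℂ ^ e = lq F := by
  obtain ⟨G, hG⟩ := exists_isYFamily hY hM
  have D := famData_ext hG hM hF
  refine ⟨valK (extSer hG (by omega) hF) (RingHom.id ℂ) (Sum.inr (), 1), ?_, ?_⟩
  · have h := D.mem_gen (Sum.inr ()) fun γ hγ τ => downRatio_smul hF hγ τ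
    rw [← IntermediateField.mem_restrictScalars ℂ, IntermediateField.adjoin_adjoin_left,
      D.image_gen] at h
    exact h
  · rw [valK, coeffMap_id_apply]
    have h1 : fG (extFun G F e) (Sum.inr (), (1 : GQ M)) = downRatio M F e := by
      show fG (extFun G F e) (Sum.inr (), ((1 : SL(2, ℤ)) : GQ M)) = _
      rw [fG_mk (pmInv_extFun hG hF)]
      funext τ
      rw [one_smul]
      rfl
    obtain ⟨hm, hs⟩ := comp_affH_mem (M := M) (a := 1) (d := M) (b := 0) (m := 1) (by simp) 1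
      (by simp) (isQFn_of_GT hF) e (h := downRatio M F e) fun τ => by
        simp only [downRatio]
        rw [div_mul_cancel₀ _ (pow_ne_zero _ (deltaFn_ne_zero _))]
    simp only [sub_one_eq, qExpand_one_apply] at hs
    rw [← hs, extSer]
    refine congrArg (fun h => wLp M h * deltaSer ℂ ^ e) (Subtype.ext ?_)
    exact h1

/-- Every ratio of forms lies in the generated field. -/
theorem mem_FYres_of_isRatioGT (hY : YForms) (hM : 4 ≤ M) {x : LaurentSeries ℂ}
    (hx : IsRatioGT M x) : x ∈ FYres M ℂ := by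
  obtain ⟨w, f, g, hf, hg, hg0, hxg⟩ := hx
  obtain ⟨n, e, he, h1, h2⟩ : ∃ n e : ℕ, (12 * e : ℤ) = w + 11 * w + n * 12 ∧
      IsFormFn (GT M) (12 * e : ℤ) (f * g ^ 11 * deltaFn ^ n) ∧
      IsFormFn (GT M) (12 * e : ℤ) (g * g ^ 11 * deltaFn ^ n) := by
    refine ⟨(-w).toNat, (w + ((-w).toNat : ℕ)).toNat, by omega, ?_, ?_⟩
    · exact ((hf.mul (hg.pow 11)).mul ((isFormFn_delta.pow (-w).toNat).mono le_top)).cast
        (by push_cast; omega)
    · exact ((hg.mul (hg.pow 11)).mul ((isFormFn_delta.pow (-w).toNat).mono le_top)).cast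
        (by push_cast; omega)
  obtain ⟨L0, hL0, e0⟩ := exists_series_downRatio hY hM h1
  obtain ⟨L1, hL1, e1⟩ := exists_series_downRatio hY hM h2
  have hΔ : IsQFn (deltaFn ^ n) := isFormFn_delta.isQFnTop.pow n
  have hq : ∀ φ : ℍ → ℂ, IsFormFn (GT M) w φ →
      lq (φ * g ^ 11 * deltaFn ^ n) = lq φ * (lq (g ^ 11) * lq (deltaFn ^ n)) := fun φ hφ => by
    rw [lq_mul (isQFn_of_GT (hφ.mul (hg.pow 11))) hΔ,
      lq_mul (isQFn_of_GT hφ) (isQFn_of_GT (hg.pow 11)), mul_assoc]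
  have hlg : lq g ≠ 0 := fun h => hg0 ((lq_eq_zero_iff (isQFn_of_GT hg)).1 h)
  have hne : lq (g * g ^ 11 * deltaFn ^ n) ≠ 0 := by
    rw [hq g hg, lq_pow (isQFn_of_GT hg), lq_pow isFormFn_delta.isQFnTop]
    exact mul_ne_zero hlg (mul_ne_zero (pow_ne_zero _ hlg) (pow_ne_zero _ lq_delta_ne_zero))
  have hx2 : x * lq (g * g ^ 11 * deltaFn ^ n) = lq (f * g ^ 11 * deltaFn ^ n) := by
    rw [hq g hg, hq f hf, ← mul_assoc, hxg]
  rw [← e0, ← e1, ← mul_assoc] at hx2
  have hd : deltaSer ℂ ^ e ≠ 0 := pow_ne_zero _ (lq_deltaFn ▸ lq_delta_ne_zero)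
  have hL1' : L1 ≠ 0 := fun h0 => hne (by rw [← e1, h0, zero_mul])
  rw [show x = L0 / L1 from eq_div_of_mul_eq hL1' (mul_right_cancel₀ hd hx2)]
  exact div_mem hL0 hL1

/-- **The analytic description over `ℂ`.** -/
theorem fieldC (hY : YForms) : FieldC := fun M _ hM x => by
  rw [FYK, laurentBaseChange_FY (by omega)]
  exact ⟨fun h => FYres_le_ratioGT hY hM h, mem_FYres_of_isRatioGT hY hM⟩

end Fermat.Agent.WeightOneGalois.Field
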