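import Fermat.Agent.WeightOneGalois.Field.FamilyGalois
import Fermat.Agent.WeightOneGalois.Hecke.Gens

/-!
# The degree of the curve of `GT M` over the `j`-line

Proves `FieldDegree`: in characteristic prime to `M` the degree over `k(j)` is the index of
`GT M`, by the Galois group of the family of conjugates of the generators.
-/

noncomputable section

open UpperHalfPlane Function IntermediateField
open scoped MatrixGroups

namespace Fermat.Agent.WeightOneGalois.Field

open Fermat.Agent.MF Fermat.Agent.Igusa ModularCurve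

variable {M : ℕ} [NeZero M]

theorem exists_isYFamily (hY : YForms) (hM : 4 ≤ M) :
    ∃ G : ZMod M × ZMod M → ℍ → ℂ, IsYFamily G := by
  obtain ⟨G, h1, h2, h3⟩ := hY M hM
  exact ⟨G, h1, h2, h3⟩

theorem FamData.image_gen {G : ZMod M × ZMod M → ℍ → ℂ} {R : Type*} [CommRing R] {φC : R →+* ℂ}
    {ι : Type*} {f : ι → ℍ → ℂ} {sA : ι × GQ M → LaurentSeries R} {incl : Gen M → ι}
    {ψ : CRing M →+* R} {k : Type*} [Field k] {φ : R →+* k}
    (D : FamData G φC f sA incl ψ φ) :
    IntermediateField.adjoin k ({jv (1 : kˣ) M} ∪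
      valK sA φ '' Set.range fun i => (incl i, (1 : GQ M))) = FYres M k := by
  rw [FYres_eq_adjoin]
  refine congrArg (IntermediateField.adjoin k) (Set.ext fun y => ?_)
  constructor
  · rintro (rfl | ⟨_, ⟨i, rfl⟩, rfl⟩)
    · exact Or.inl ⟨M, inferInstance, dvd_pow_self M two_ne_zero, jv_one_eq_qExpand M⟩
    · cases i with
      | inl e => exact Or.inl ⟨e, inferInstance, Nat.dvd_of_mem_divisors e.2,
          (D.valK_inl_one e).trans (jv_one_eq_qExpand _)⟩
      | inr a => exact Or.inr ⟨a, (D.valK_inr_one a).symm⟩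
  · rintro (⟨d, hd0, hd, rfl⟩ | ⟨a, rfl⟩)
    · right
      exact ⟨_, ⟨.inl ⟨d, Nat.mem_divisors.2 ⟨hd, pow_ne_zero 2 (NeZero.ne M)⟩⟩, rfl⟩,
        (D.valK_inl_one _).trans (jv_one_eq_qExpand d)⟩
    · right
      exact ⟨_, ⟨.inr a, rfl⟩, D.valK_inr_one a⟩

/-- The degree of the field over `k(j)` is the index of `GT M`. -/
theorem relfinrank_FYres (hY : YForms) (hM : 4 ≤ M) (k : Type*) [Field k] [IsAlgClosed k]
    (hMk : (M : k) ≠ 0) :
    IntermediateField.relfinrank (IntermediateField.adjoin k {jqModC k}) (FYres M k) =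
      (GT M).index := by
  obtain ⟨G, hG⟩ := exists_isYFamily hY hM
  have : NeZero (M : k) := ⟨hMk⟩
  obtain ⟨ζ, hζ⟩ := HasEnoughRootsOfUnity.exists_primitiveRoot k M
  have hser : ∀ x : Gen M × GQ M, ∃ F, HasSer M (toC M) (fG (baseFun G) x) F :=
    fun x => exists_hasSer_baseFun hG (by omega) x.1 x.2.out
  choose sA hsA using hser
  have D : FamData G (toC M) (baseFun G) sA id (RingHom.id _) (toField ζ hζ hMk) :=
    { fam := hG, four_le := hM, inj := toC_injective M, compat := RingHom.comp_id _
      pm := pmInv_baseFun hG, ser := hsA, incl_eq := fun _ => rfl, char := hMk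
      prim := by rw [RingHom.id_apply, toField_zetaA]; exact hζ }
  have h := D.finrank_gen
  rw [finrank_adjoin_jline, D.image_gen, index_GTc] at h
  have hM2 : ((M ^ 2 : ℕ) : k) ≠ 0 := by push_cast; exact pow_ne_zero 2 hMk
  rw [relfinrank_adjoin_jv_eq (X := FYres M k) hM2 le_sup_left M (dvd_pow_self M two_ne_zero),
      jv_one_one] at h
  exact h

/-- **The degree in every characteristic prime to the level.** -/
theorem fieldDegree (hY : YForms) : FieldDegree :=
  fun _ _ hM k _ _ hMk => relfinrank_FYres hY hM k hMk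

end Fermat.Agent.WeightOneGalois.Field
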