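import Fermat.Agent.WeightOneGalois.Field.Galois
import Fermat.Agent.WeightOneGalois.Field.Group
import Fermat.Agent.WeightOneGalois.Field.Series

/-!
# Families of functions of level `M` over the `j`-line

Indexes the conjugates of the generators by cosets of `± Γ(M)` and attaches their series, so that
`Field/Galois` applies.
-/

noncomputable section

open UpperHalfPlane Function IntermediateField
open scoped MatrixGroups

namespace Fermat.Agent.WeightOneGalois.Field

open Fermat.Agent.MF Fermat.Agent.Igusa ModularCurve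

variable (M : ℕ) [NeZero M]

/-- `SL(2, ℤ)` modulo `± Γ(M)`. -/
abbrev GQ : Type := SL(2, ℤ) ⧸ pmGamma M

instance fintypeGQ : Fintype (GQ M) := Fintype.ofFinite _

variable {M}

/-- Invariance under `± Γ(M)`. -/
def PmInv {ι : Type*} (f : ι → ℍ → ℂ) : Prop :=
  ∀ i, ∀ n ∈ pmGamma M, ∀ τ : ℍ, f i (n • τ) = f i τ

/-- The translate of `f i` by a coset of `± Γ(M)`. -/
def fG {ι : Type*} (f : ι → ℍ → ℂ) (x : ι × GQ M) : ℍ → ℂ := fun τ => f x.1 (x.2.out • τ)

section Values

variable {ι : Type*} {f : ι → ℍ → ℂ}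

omit [NeZero M] in
theorem fG_mk (hf : PmInv (M := M) f) (i : ι) (γ : SL(2, ℤ)) :
    fG f (i, (γ : GQ M)) = fun τ => f i (γ • τ) := by
  funext τ
  obtain ⟨n, hn⟩ := QuotientGroup.mk_out_eq_mul (pmGamma M) γ
  show f i ((γ : GQ M).out • τ) = _
  rw [hn, show γ * (n : SL(2, ℤ)) = (γ * n * γ⁻¹) * γ by group, mul_smul]
  exact hf i _ (normal_pmGamma.conj_mem _ n.2 γ) _

omit [NeZero M] in
theorem fG_shift (hf : PmInv (M := M) f) (x : ι × GQ M) (δ : SL(2, ℤ)) (τ : ℍ) :
    fG f (shiftIdx (δ : GQ M) x) τ = fG f x (δ • τ) := by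
  obtain ⟨i, q⟩ := x
  induction q using QuotientGroup.induction_on with
  | H γ =>
    show fG f (i, (γ : GQ M) * (δ : GQ M)) τ = _
    rw [← QuotientGroup.mk_mul, fG_mk hf, fG_mk hf]
    simp only [mul_smul]

variable {R : Type*} [CommRing R] {φC : R →+* ℂ} {k : Type*} [Field k]
  {sA : ι × GQ M → LaurentSeries R}

/-- Formally invariant polynomials in the series lie over the `j`-line. -/
theorem invariantValues (hφC : Injective φC) (φ : R →+* k) (hf : PmInv (M := M) f)
    (hser : ∀ x, HasSer M φC (fG f x) (sA x)) :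
    InvariantValues k⟮jv (1 : kˣ) M⟯ fun x => coeffMap φ (sA x) := by
  intro P hP
  let W : ι × GQ M → wSub M := fun x => ⟨fG f x, (hser x).1⟩
  set Fw : wSub M := MvPolynomial.eval₂Hom (Int.castRingHom _) W P
  have hval : ∀ τ, (Fw : ℍ → ℂ) τ =
      MvPolynomial.eval₂Hom (Int.castRingHom ℂ) (fun x => fG f x τ) P := fun τ => by
    have h := MvPolynomial.map_eval₂Hom (Int.castRingHom _) W
      ((Pi.evalRingHom (fun _ : ℍ => ℂ) τ).comp (wSub M).val.toRingHom) P
    rw [RingHom.ext_int (((Pi.evalRingHom (fun _ : ℍ => ℂ) τ).comp (wSub M).val.toRingHom).comp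
      (Int.castRingHom (wSub M))) (Int.castRingHom ℂ)] at h
    exact h
  have hinv : ∀ (δ : SL(2, ℤ)) (τ : ℍ), (Fw : ℍ → ℂ) (δ • τ) = (Fw : ℍ → ℂ) τ := fun δ τ => by
    rw [hval, hval]
    conv_rhs => rw [← hP (δ : GQ M)]
    rw [shiftPoly, AlgHom.toRingHom_eq_coe, RingHom.coe_coe, MvPolynomial.eval₂Hom_rename]
    congr 2
    funext x
    exact (fG_shift hf x δ τ).symm
  obtain ⟨P0, hP0⟩ := exists_evalAt_of_invariant Fw hinv
  set F := MvPolynomial.eval₂Hom (Int.castRingHom _) sA P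
  have hF : wLp M Fw = coeffMap φC F := by
    rw [MvPolynomial.map_eval₂Hom, MvPolynomial.map_eval₂Hom,
      RingHom.ext_int ((wLp M).comp (Int.castRingHom (wSub M))) (Int.castRingHom _),
      RingHom.ext_int ((coeffMap φC).comp (Int.castRingHom (LaurentSeries R))) (Int.castRingHom _)]
    congr 2
    funext x
    exact (hser x).2
  obtain ⟨Q, -, hQ⟩ := exists_lift_evalAt_jv hφC (NeZero.ne M) P0 F (hP0.symm.trans hF)
  have h : evFam (fun x => coeffMap φ (sA x)) P = evalAt (jv (1 : kˣ) M) (Q.map φ) := by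
    have e : coeffMap φ F = evFam (fun x => coeffMap φ (sA x)) P := by
      rw [evFam, MvPolynomial.map_eval₂Hom,
        RingHom.ext_int ((coeffMap φ).comp (Int.castRingHom (LaurentSeries R))) (Int.castRingHom _)]
    rw [← e, ← hQ, coeffMap_evalAt, coeffMap_jv φ 1 (NeZero.ne M), map_one]
  rw [h, ← aeval_eq_evalAt]
  exact ⟨⟨_, IntermediateField.algebra_adjoin_le_adjoin k _
    (Polynomial.aeval_mem_adjoin_singleton k _)⟩, rfl⟩

omit [NeZero M] in
theorem finrank_adjoin_jline (S : Set (LaurentSeries k)) :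
    Module.finrank k⟮jv (1 : kˣ) M⟯ (IntermediateField.adjoin k⟮jv (1 : kˣ) M⟯ S) =
      IntermediateField.relfinrank k⟮jv (1 : kˣ) M⟯
        (IntermediateField.adjoin k ({jv (1 : kˣ) M} ∪ S)) := by
  have hle : k⟮jv (1 : kˣ) M⟯ ≤ IntermediateField.adjoin k ({jv (1 : kˣ) M} ∪ S) :=
    IntermediateField.adjoin.mono k _ _ Set.subset_union_left
  rw [IntermediateField.relfinrank_eq_finrank_of_le hle]
  have : IntermediateField.extendScalars hle = IntermediateField.adjoin k⟮jv (1 : kˣ) M⟯ S :=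
    IntermediateField.restrictScalars_injective k (by
      rw [IntermediateField.extendScalars_restrictScalars, IntermediateField.adjoin_adjoin_left])
  rw [this]

end Values

/-! ### The generators -/

variable (M) in
/-- Indices of the generators. -/
abbrev Gen : Type := {e : ℕ // e ∈ (M ^ 2).divisors} ⊕ (ZMod M)ˣ

instance neZero_divisor {n : ℕ} (e : {e : ℕ // e ∈ n.divisors}) : NeZero (e : ℕ) :=
  ⟨(Nat.pos_of_mem_divisors e.2).ne'⟩

variable (G : ZMod M × ZMod M → ℍ → ℂ)

/-- The generators of the field of `GT M` as functions on `ℍ`. -/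
def baseFun : Gen M → ℍ → ℂ
  | .inl e => fun τ => jFun (affH (e : ℕ) M 0 τ)
  | .inr x => yFun G ((x : ZMod M), 0)

variable {G}

theorem baseFun_inl_smul (e : {e : ℕ // e ∈ (M ^ 2).divisors}) {γ : SL(2, ℤ)}
    (hγ : γ ∈ Gamma00 M) (τ : ℍ) : baseFun G (.inl e) (γ • τ) = baseFun G (.inl e) τ := by
  obtain ⟨hb, hc⟩ := hγ
  rw [ZMod.intCast_zmod_eq_zero_iff_dvd] at hb hc
  obtain ⟨b, hb⟩ := hb
  obtain ⟨c, hc⟩ := hc
  obtain ⟨t, ht⟩ := Nat.dvd_of_mem_divisors e.2
  have ht' : (M : ℤ) ^ 2 = (e : ℕ) * t := by exact_mod_cast ht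
  have hdet := γ.2
  rw [Matrix.det_fin_two, hb, hc] at hdet
  let σ : SL(2, ℤ) := ⟨!![γ 0 0, (e : ℕ) * b; t * c, γ 1 1], by
    rw [Matrix.det_fin_two_of]
    linear_combination hdet + b * c * ht'⟩
  show jFun (affH (e : ℕ) M 0 (γ • τ)) = jFun (affH (e : ℕ) M 0 τ)
  rw [affH_smul_eq (e := (e : ℕ)) (e' := M) (γ := γ) (σ := σ) (a := (e : ℕ)) (d := M) (b := 0)
    (mul_comm _ _)
    (by simp [σ, hc]; linear_combination c * ht') (by simp [σ, hb]; ring) (by simp [σ, mul_comm]),
    jFun_smul']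

theorem pmInv_baseFun (hG : IsYFamily G) : PmInv (M := M) (baseFun G) := by
  intro i n hn τ
  cases i with
  | inl e => exact baseFun_inl_smul e (pmGamma_le_Gamma00 hn) τ
  | inr x =>
    show yFun G ((x : ZMod M), 0) (n • τ) = yFun G ((x : ZMod M), 0) τ
    rw [hG.yFun_smul (isPrim_units x), rowMul_fst_zero]
    obtain ⟨h01, -, ⟨h00, -⟩ | ⟨h00, -⟩⟩ := mem_pmGamma_iff.1 hn
    · rw [h00, h01, mul_one, mul_zero]
    · rw [h00, h01, mul_neg, mul_one, mul_zero, yFun, yFun,
        show ((-(x : ZMod M)), (0 : ZMod M)) = -((x : ZMod M), 0) by simp, hG.G_neg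
            (isPrim_units x)]

theorem baseFun_inr_smul (hG : IsYFamily G) (x : (ZMod M)ˣ) {γ : SL(2, ℤ)} (hγ : γ ∈ GTc M)
    (τ : ℍ) : baseFun G (.inr x) (γ • τ) = baseFun G (.inr x) τ := by
  obtain ⟨⟨h01, h10⟩, hd⟩ := hγ
  have hdet := diag_mul_eq_one h10
  show yFun G ((x : ZMod M), 0) (γ • τ) = yFun G ((x : ZMod M), 0) τ
  rw [hG.yFun_smul (isPrim_units x), rowMul_fst_zero, h01, mul_zero]
  rcases hd with hd | hd <;> rw [hd] at hdet
  · rw [mul_one] at hdet
    rw [hdet, mul_one]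
  · rw [show ((γ 0 0 : ℤ) : ZMod M) = -1 by linear_combination -hdet, mul_neg, mul_one, yFun, yFun,
      show ((-(x : ZMod M)), (0 : ZMod M)) = -((x : ZMod M), 0) by simp, hG.G_neg (isPrim_units x)]

theorem exists_hasSer_baseFun (hG : IsYFamily G) (hM : 2 ≤ M) (i : Gen M) (γ : SL(2, ℤ)) :
    ∃ F, HasSer M (toC M) (fun τ => baseFun G i (γ • τ)) F := by
  cases i with
  | inr x =>
    refine ⟨yFam (CRing M) (zetaA M) (rowMul ((x : ZMod M), 0) γ), ?_⟩
    rw [show (fun τ => baseFun G (.inr x) (γ • τ)) = yFun G (rowMul ((x : ZMod M), 0) γ) from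
      funext fun τ => hG.yFun_smul (isPrim_units x) γ τ]
    exact hG.hasSer_yFun hM (isPrim_rowMul (isPrim_units x) γ)
  | inl e =>
    obtain ⟨g, e', m', hg, hco, he, hm⟩ :=
      Nat.exists_coprime' (Nat.gcd_pos_of_pos_left M (NeZero.pos (e : ℕ)))
    have he0 : NeZero e' := ⟨fun h => NeZero.ne (e : ℕ) (by rw [he, h, zero_mul])⟩
    have hm0 : NeZero m' := ⟨fun h => NeZero.ne M (by rw [hm, h, zero_mul])⟩
    have hd : e' * m' ∣ M := by
      have h := Nat.dvd_of_mem_divisors e.2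
      rw [he, hm, show (m' * g) ^ 2 = m' * m' * g * g by ring] at h
      have h2 := Nat.dvd_of_mul_dvd_mul_right hg h
      have h3 : e' ∣ g := (hco.mul_right hco).dvd_of_dvd_mul_left h2
      rw [hm, mul_comm e']
      exact Nat.mul_dvd_mul_left m' h3
    obtain ⟨σ, a, d, b, -, -, -, -, hser⟩ := exists_hasSer_jCoset hd γ
    refine ⟨jv (zetaAU M ^ ((M / d : ℕ) * b)) (M / d * a), ?_⟩
    rw [show (fun τ => baseFun G (.inl e) (γ • τ)) =
      fun τ => jFun (affH e' m' 0 (γ • τ)) from funext fun τ => ?_]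
    · exact hser
    refine congrArg jFun (UpperHalfPlane.ext ?_)
    have hg' : (g : ℂ) ≠ 0 := by exact_mod_cast hg.ne'
    have hm' : (m' : ℂ) ≠ 0 := by exact_mod_cast NeZero.ne m'
    have c1 : ((e : ℕ) : ℂ) = (e' : ℂ) * g := by rw [he]; push_cast; rfl
    have c2 : (M : ℂ) = (m' : ℂ) * g := by rw [hm]; push_cast; rfl
    simp only [coe_affH, Int.cast_zero, add_zero, c1, c2]
    field_simp

theorem hasSer_baseFun_inl_one (e : {e : ℕ // e ∈ (M ^ 2).divisors}) :
    HasSer M (toC M) (baseFun G (.inl e)) (jv 1 (e : ℕ)) :=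
  hasSer_jFun_affH (rfl : M * (e : ℕ) = M * (e : ℕ)) 1 (by simp)

theorem HasSer.map {R S : Type*} [CommRing R] [CommRing S] {φ : R →+* ℂ} {φ' : S →+* ℂ}
    {ψ : R →+* S} (hψ : φ'.comp ψ = φ) {h : ℍ → ℂ} {F : LaurentSeries R} (hF : HasSer M φ h F) :
    HasSer M φ' h (coeffMap ψ F) := by
  obtain ⟨hm, e⟩ := hF
  exact ⟨hm, by rw [coeffMap_coeffMap, hψ, e]⟩

/-- The series of the rows `(a, 0)` determine the unit `a` up to sign, by their least positive
exponent. -/
theorem gSer_fst_inj {k : Type*} [CommRing k] [Nontrivial k] (hM : 3 ≤ M) {ζ : k} {a a' : (ZMod M)ˣ}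
    (h : gSer k ζ ((a : ZMod M), 0) = gSer k ζ ((a' : ZMod M), 0)) :
    (a' : ZMod M) = a ∨ (a' : ZMod M) = -a := by
  have : Fact (1 < M) := ⟨by omega⟩
  set r : (ZMod M)ˣ → ℕ := fun b => min (b : ZMod M).val (-(b : ZMod M)).val
  have hne : ∀ b : (ZMod M)ˣ, (b : ZMod M) ≠ -(b : ZMod M) := fun b hb => by
    have h2 : ((2 : ℕ) : ZMod M) = 0 := by
      have h3 : ((2 : ℕ) : ZMod M) * (b : ZMod M) = 0 := by push_cast; linear_combination hb
      exact b.isUnit.mul_left_eq_zero.1 h3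
    have := Nat.le_of_dvd two_pos ((ZMod.natCast_eq_zero_iff _ _).1 h2)
    omega
  have hpos : ∀ b : (ZMod M)ˣ, 0 < r b := fun b => lt_min
    (Nat.pos_of_ne_zero fun h0 => b.ne_zero ((ZMod.val_eq_zero _).1 h0))
    (Nat.pos_of_ne_zero fun h0 => b.ne_zero (neg_eq_zero.1 ((ZMod.val_eq_zero _).1 h0)))
  have hfil : ∀ (b : ZMod M) (n : ℕ), 0 < n → n ≤ b.val →
      n.divisors.filter (fun d : ℕ => (d : ZMod M) = b) = if n = b.val then {n} else ∅ := by
    intro b n hn hnb
    ext d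
    have hlt : ∀ d, d ∣ n → (d : ZMod M) = b → d = b.val := fun d hd hdb => by
      rw [← hdb, ZMod.val_natCast, Nat.mod_eq_of_lt]
      exact lt_of_le_of_lt ((Nat.le_of_dvd hn hd).trans hnb) (ZMod.val_lt b)
    split_ifs with hb <;> simp only [Finset.mem_filter, Nat.mem_divisors, Finset.mem_singleton,
      Finset.notMem_empty, iff_false, not_and]
    · refine ⟨fun hd => hb ▸ hlt d hd.1.1 hd.2, ?_⟩
      rintro rfl
      exact ⟨⟨dvd_rfl, hn.ne'⟩, by rw [hb, ZMod.natCast_zmod_val]⟩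
    · exact fun hd hdb => hb (le_antisymm hnb ((hlt d hd.1 hdb) ▸ Nat.le_of_dvd hn hd.1))
  have hcoeff : ∀ (b : (ZMod M)ˣ) (n : ℕ), 0 < n → n ≤ r b →
      PowerSeries.coeff n (gSer k ζ ((b : ZMod M), 0)) = if n = r b then 1 else 0 := by
    intro b n hn hnb
    have h1 : n ≤ (b : ZMod M).val := hnb.trans (min_le_left _ _)
    have h2 : n ≤ (-(b : ZMod M)).val := hnb.trans (min_le_right _ _)
    rw [gSer, PowerSeries.coeff_mk, if_neg hn.ne']
    simp only [neg_zero, ZMod.val_zero, zero_mul, pow_zero, mul_one]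
    rw [hfil _ n hn h1, hfil _ n hn h2]
    have hv : (b : ZMod M).val ≠ (-(b : ZMod M)).val := fun e => hne b (ZMod.val_injective M e)
    by_cases hr : n = r b
    · rw [if_pos hr]
      rcases le_total (b : ZMod M).val (-(b : ZMod M)).val with hle | hle
      · rw [if_pos (hr.trans (min_eq_left hle)), if_neg fun e => hv ?_]
        · simp [Nat.div_self hn]
        · exact ((hr.trans (min_eq_left hle)).symm.trans e)
      · rw [if_neg fun e => hv ?_, if_pos (hr.trans (min_eq_right hle))]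
        · simp [Nat.div_self hn]
        · exact (e.symm.trans (hr.trans (min_eq_right hle)))
    · rw [if_neg hr, if_neg fun e => hr (le_antisymm hnb ((min_le_left _ _).trans_eq e.symm)),
        if_neg fun e => hr (le_antisymm hnb ((min_le_right _ _).trans_eq e.symm))]
      simp
  have hr : r a = r a' := by
    rcases lt_trichotomy (r a) (r a') with hlt | heq | hlt
    · have := congrArg (PowerSeries.coeff (r a)) h
      rw [hcoeff a _ (hpos a) le_rfl, hcoeff a' _ (hpos a) hlt.le, if_pos rfl,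
        if_neg hlt.ne] at this
      exact absurd this one_ne_zero
    · exact heq
    · have := congrArg (PowerSeries.coeff (r a')) h
      rw [hcoeff a' _ (hpos a') le_rfl, hcoeff a _ (hpos a') hlt.le, if_pos rfl,
        if_neg hlt.ne] at this
      exact absurd this.symm one_ne_zero
  simp only [r] at hr
  have key : ∀ x y : ZMod M, x.val = y.val → x = y := fun x y e => ZMod.val_injective M e
  rcases min_choice (a : ZMod M).val (-(a : ZMod M)).val with e1 | e1 <;>
    rcases min_choice (a' : ZMod M).val (-(a' : ZMod M)).val with e2 | e2 <;> rw [e1, e2] at hr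
  · exact Or.inl (key _ _ hr).symm
  · exact Or.inr (neg_eq_iff_eq_neg.1 (key _ _ hr).symm)
  · exact Or.inr (key _ _ hr).symm
  · exact Or.inl (neg_injective (key _ _ hr).symm)

theorem yFam_fst_inj {k : Type*} [Field k] (hM : 3 ≤ M) {ζ : k} {a a' : (ZMod M)ˣ}
    (h : yFam k ζ ((a : ZMod M), 0) = yFam k ζ ((a' : ZMod M), 0)) :
    (a' : ZMod M) = a ∨ (a' : ZMod M) = -a := by
  refine gSer_fst_inj hM (HahnSeries.ofPowerSeries_injective (mul_right_cancel₀ ?_ h))
  rw [map_ne_zero_iff _ (qExpand_injective M)]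
  refine mul_ne_zero (HahnSeries.single_ne_zero one_ne_zero) ?_
  rw [map_ne_zero_iff _ HahnSeries.ofPowerSeries_injective]
  intro h0
  have := congrArg PowerSeries.constantCoeff h0
  rw [← PowerSeries.coeff_zero_eq_constantCoeff_apply, PowerSeries.coeff_map,
    PowerSeries.coeff_zero_eq_constantCoeff_apply, constantCoeff_weightFix, map_one,
    map_zero] at this
  exact one_ne_zero this

end Fermat.Agent.WeightOneGalois.Field
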