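import Fermat.Agent.WeightOneGalois.Field.Stab

/-!
# The group of a family containing the generators is everything

The Galois group of the conjugates of the generators is all of `SL(2, ℤ) / ± Γ(M)`, which gives
the degrees of the subfields used in `Field/Degree` and `Field/Complex`.
-/

noncomputable section

open UpperHalfPlane Function IntermediateField
open scoped MatrixGroups

namespace Fermat.Agent.WeightOneGalois.Field

open Fermat.Agent.MF Fermat.Agent.Igusa ModularCurve

variable {M : ℕ} [NeZero M] {G : ZMod M × ZMod M → ℍ → ℂ} {R : Type*} [CommRing R]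
  {φC : R →+* ℂ} {ι : Type*} {f : ι → ℍ → ℂ} {sA : ι × GQ M → LaurentSeries R} {incl : Gen M → ι}
  {ψ : CRing M →+* R} {k : Type*} [Field k] {φ : R →+* k}

/-- The translation `t ↦ ζ t` realises `T`. -/
theorem FamData.sub_valK (D : FamData G φC f sA incl ψ φ) (x : ι × GQ M) :
    sub (Units.map ((φ.comp ψ : CRing M →+* k) : CRing M →* k) (zetaAU M)) 1 (valK sA φ x) =
      valK sA φ (shiftIdx ((ModularGroup.T : SL(2, ℤ)) : GQ M) x) := by
  set ζ : Rˣ := Units.map (ψ : CRing M →* R) (zetaAU M)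
  have hφC : φC (ζ : R) = zetaC M := by
    show φC (ψ (zetaA M)) = _
    rw [← RingHom.comp_apply, D.compat, toC_zetaA]
  have e := HasSer.translate ζ hφC D.inj (D.ser x) (D.ser (shiftIdx _ x)) fun τ => by
    rw [fG_shift D.pm, UpperHalfPlane.modular_T_smul]
  rw [valK, valK, e, coeffMap_sub φ ζ one_ne_zero]
  rfl

theorem FamData.sub_jline (D : FamData G φC f sA incl ψ φ) (b : k⟮jv (1 : kˣ) M⟯) :
    sub (Units.map ((φ.comp ψ : CRing M →+* k) : CRing M →* k) (zetaAU M)) 1
      (b : LaurentSeries k) = b := by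
  set u := Units.map ((φ.comp ψ : CRing M →+* k) : CRing M →* k) (zetaAU M)
  obtain ⟨b, hb⟩ := b
  show sub u 1 b = b
  induction hb using IntermediateField.adjoin_induction with
  | mem y hy =>
    rw [Set.mem_singleton_iff] at hy
    have hu : u ^ M = 1 := Units.ext (by simpa [u, coe_zetaAU] using D.prim.pow_eq_one)
    rw [hy, sub_jv _ _ one_ne_zero (NeZero.ne M), one_mul, one_mul, hu]
  | algebraMap c =>
    rw [algebraMap_laurentSeries_eq_single, sub_single _ one_ne_zero]
    simp
  | add y z _ _ hy hz => rw [map_add, hy, hz]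
  | inv y _ hy => rw [map_inv₀, hy]
  | mul y z _ _ hy hz => rw [map_mul, hy, hz]

/-- The fields generated by the `j`'s at the identity. -/
theorem FamData.adjoin_inl (D : FamData G φC f sA incl ψ φ) :
    IntermediateField.adjoin k ({jv (1 : kˣ) M} ∪
      valK sA φ '' Set.range fun e => (incl (.inl e), (1 : GQ M))) =
        modularFunctionFieldFullC k (M ^ 2) := by
  refine congrArg (IntermediateField.adjoin k) (Set.ext fun y => ?_)
  constructor
  · rintro (rfl | ⟨_, ⟨e, rfl⟩, rfl⟩)
    · exact ⟨M, inferInstance, dvd_pow_self M two_ne_zero, jv_one_eq_qExpand M⟩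
    · exact ⟨e, inferInstance, Nat.dvd_of_mem_divisors e.2,
        (D.valK_inl_one e).trans (jv_one_eq_qExpand _)⟩
  · rintro ⟨d, hd0, hd, rfl⟩
    right
    exact ⟨_, ⟨⟨d, Nat.mem_divisors.2 ⟨hd, pow_ne_zero 2 (NeZero.ne M)⟩⟩, rfl⟩,
      (D.valK_inl_one _).trans (jv_one_eq_qExpand d)⟩

omit [NeZero M] in
/-- A property of cosets cut out by a group over `± Γ(M)` is membership in its image. -/
theorem iff_mem_map_mk {S : Subgroup SL(2, ℤ)} (hS : pmGamma M ≤ S) {P : GQ M → Prop}
    (hP : ∀ γ : SL(2, ℤ), P γ ↔ γ ∈ S) (g : GQ M) :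
    P g ↔ g ∈ S.map (QuotientGroup.mk' (pmGamma M)) := by
  induction g using QuotientGroup.induction_on with
  | H γ =>
    rw [hP, Subgroup.mem_map]
    refine ⟨fun h => ⟨γ, h, rfl⟩, ?_⟩
    rintro ⟨γ', hγ', he⟩
    have : γ'⁻¹ * γ ∈ S := hS (QuotientGroup.eq.1 he)
    simpa using mul_mem hγ' this

omit [NeZero M] in
theorem index_map_mk {S : Subgroup SL(2, ℤ)} (hS : pmGamma M ≤ S) :
    (S.map (QuotientGroup.mk' (pmGamma M))).index = S.index := by
  refine Subgroup.index_map_eq _ (QuotientGroup.mk'_surjective _) ?_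
  rw [QuotientGroup.ker_mk']
  exact hS

omit [NeZero M] in
theorem card_subtype_of_subgroup {S : Subgroup SL(2, ℤ)} (hS : pmGamma M ≤ S) {P : GQ M → Prop}
    (hP : ∀ γ : SL(2, ℤ), P γ ↔ γ ∈ S) :
    Nat.card {g : GQ M // P g} * S.index = Nat.card (GQ M) := by
  rw [← index_map_mk hS, ← Subgroup.card_mul_index (S.map (QuotientGroup.mk' (pmGamma M)))]
  congr 1
  exact Nat.card_congr (Equiv.subtypeEquivRight fun g => iff_mem_map_mk hS hP g)

/-- A subgroup meeting every coset of the image of `Gamma00 M` has an element with invertible lower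
entry. -/
theorem exists_isUnit_lower {H : Subgroup (GQ M)}
    (hrel : ((Gamma00 M).map (QuotientGroup.mk' (pmGamma M))).relIndex H =
      ((Gamma00 M).map (QuotientGroup.mk' (pmGamma M))).index) :
    ∃ δ : SL(2, ℤ), (δ : GQ M) ∈ H ∧ IsUnit ((δ 1 0 : ℤ) : ZMod M) := by
  set S := (Gamma00 M).map (QuotientGroup.mk' (pmGamma M))
  let g : H ⧸ S.subgroupOf H → GQ M ⧸ S := Quotient.map' Subtype.val fun a b h => by
    rw [QuotientGroup.leftRel_apply] at h ⊢
    exact h
  have hinj : Injective g := by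
    intro a b
    induction a using QuotientGroup.induction_on with
    | H a =>
      induction b using QuotientGroup.induction_on with
      | H b =>
        intro h
        exact QuotientGroup.eq.2 (Subgroup.mem_subgroupOf.2 (by
          simpa using QuotientGroup.eq.1 (show ((a : GQ M) : GQ M ⧸ S) = (b : GQ M) from h)))
  have hbij : Function.Bijective g := (Nat.bijective_iff_injective_and_card g).2 ⟨hinj, hrel⟩
  obtain ⟨h, hh⟩ := hbij.2 (((ModularGroup.S : SL(2, ℤ)) : GQ M) : GQ M ⧸ S)
  induction h using QuotientGroup.induction_on with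
  | H h =>
    obtain ⟨h, hmem⟩ := h
    obtain ⟨δ, rfl⟩ := QuotientGroup.mk_surjective h
    refine ⟨δ, hmem, ?_⟩
    have h1 : (((δ⁻¹ * ModularGroup.S : SL(2, ℤ))) : GQ M) ∈ S := by
      simpa using QuotientGroup.eq.1 hh
    have hm : δ⁻¹ * ModularGroup.S ∈ Gamma00 M :=
      by
        obtain ⟨m, hm, he⟩ := h1
        have : m⁻¹ * (δ⁻¹ * ModularGroup.S) ∈ Gamma00 M :=
          pmGamma_le_Gamma00 (QuotientGroup.eq.1 he)
        simpa using mul_mem hm this
    set μ := δ⁻¹ * ModularGroup.S
    have e : (δ * μ) 1 0 = 1 := by simp [μ, ModularGroup.coe_S]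
    simp only [Matrix.SpecialLinearGroup.coe_mul, Matrix.mul_apply, Fin.sum_univ_two] at e
    have e2 := congrArg (Int.cast : ℤ → ZMod M) e
    push_cast at e2
    rw [hm.2, mul_zero, add_zero] at e2
    exact IsUnit.of_mul_eq_one _ e2

/-- **The degrees of the subfields of a family.** -/
theorem FamData.finrank_mul_card [IsAlgClosed k] [Finite ι] (D : FamData G φC f sA incl ψ φ)
    (J : Set (ι × GQ M)) :
    Module.finrank k⟮jv (1 : kˣ) M⟯
        (IntermediateField.adjoin k⟮jv (1 : kˣ) M⟯ (valK sA φ '' J)) *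
      Nat.card {g : GQ M // ∀ x ∈ J, valK sA φ (shiftIdx g x) = valK sA φ x} =
        Nat.card (GQ M) := by
  have : Infinite k⟮jv (1 : kˣ) M⟯ :=
    Infinite.of_injective _ (algebraMap k k⟮jv (1 : kˣ) M⟯).injective
  obtain ⟨H, hHσ, hH⟩ :=
    exists_galois (invariantValues D.inj φ D.pm D.ser) fun g hg => D.exists_ne hg
  have hT : ((ModularGroup.T : SL(2, ℤ)) : GQ M) ∈ H :=
    hHσ _ D.sub_jline _ D.sub_valK
  set S : Subgroup (GQ M) := (Gamma00 M).map (QuotientGroup.mk' (pmGamma M))
  have hS : S.index = Igusa.psi (M ^ 2) := by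
    rw [index_map_mk pmGamma_le_Gamma00, index_Gamma00_eq_psi]
  have hF' : Module.finrank k⟮jv (1 : kˣ) M⟯ (IntermediateField.adjoin k⟮jv (1 : kˣ) M⟯
      (valK sA φ '' Set.range fun e => (incl (.inl e), (1 : GQ M)))) = Igusa.psi (M ^ 2) := by
    have hM2 : ((M ^ 2 : ℕ) : k) ≠ 0 := by push_cast; exact pow_ne_zero 2 D.char
    rw [finrank_adjoin_jline, D.adjoin_inl,
      relfinrank_adjoin_jv_eq hM2 le_rfl M (dvd_pow_self M two_ne_zero), relfinrank_full _ hM2]
  have hSmem : ∀ g : GQ M, (∀ x ∈ Set.range fun e => (incl (.inl e), (1 : GQ M)),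
      valK sA φ (shiftIdx g x) = valK sA φ x) ↔ g ∈ S :=
    iff_mem_map_mk pmGamma_le_Gamma00 fun γ => by
      rw [Set.forall_mem_range]
      simpa [shiftIdx] using D.stab_inl γ
  have hrel : S.relIndex H = S.index := by
    have h : Igusa.psi (M ^ 2) * Nat.card {g // g ∈ H ⊓ S} = Nat.card H := by
      rw [← hF', ← hH (Set.range fun e => (incl (.inl e), (1 : GQ M)))]
      congr 1
      exact Nat.card_congr (Equiv.subtypeEquivRight fun g => and_congr_right' (hSmem g).symm)
    have h2 : Nat.card (S.subgroupOf H) * S.relIndex H = Nat.card H := Subgroup.card_mul_index _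
    have h3 : Nat.card (S.subgroupOf H) = Nat.card {g // g ∈ H ⊓ S} := by
      rw [← Subgroup.inf_subgroupOf_left]
      exact Nat.card_congr (Subgroup.subgroupOfEquivOfLe (inf_le_left : H ⊓ S ≤ H)).toEquiv
    rw [h3, ← h, mul_comm] at h2
    rw [hS]
    exact Nat.eq_of_mul_eq_mul_right Nat.card_pos h2
  obtain ⟨δ, hδ, hδu⟩ := exists_isUnit_lower hrel
  have htop : H = ⊤ := by
    have hc : H.comap (QuotientGroup.mk' (pmGamma M)) = ⊤ := eq_top_of_mem
      (fun n hn => by
        rw [Subgroup.mem_comap, QuotientGroup.mk'_apply, (QuotientGroup.eq_one_iff n).2 hn]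
        exact one_mem _) hT hδ hδu
    rw [← Subgroup.map_comap_eq_self_of_surjective (QuotientGroup.mk'_surjective (pmGamma M)) H, hc,
      Subgroup.map_top_of_surjective _ (QuotientGroup.mk'_surjective _)]
  have h := hH J
  subst htop
  simp only [Subgroup.mem_top, true_and] at h
  exact h.trans (Nat.card_congr (Equiv.subtypeUnivEquiv fun _ => trivial))

/-- The field of the generators has the index of `GTc` as degree. -/
theorem FamData.finrank_gen [IsAlgClosed k] [Finite ι] (D : FamData G φC f sA incl ψ φ) :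
    Module.finrank k⟮jv (1 : kˣ) M⟯ (IntermediateField.adjoin k⟮jv (1 : kˣ) M⟯
      (valK sA φ '' Set.range fun i => (incl i, (1 : GQ M)))) = (GTc M).index := by
  have h := D.finrank_mul_card (Set.range fun i => (incl i, (1 : GQ M)))
  have h2 := card_subtype_of_subgroup pmGamma_le_GTc
    (P := fun g => ∀ x ∈ Set.range fun i => (incl i, (1 : GQ M)),
      valK sA φ (shiftIdx g x) = valK sA φ x)
    fun γ => by
      rw [Set.forall_mem_range]
      simpa [shiftIdx] using D.stab_gen γ
  rw [← h, mul_comm] at h2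
  have : Nonempty {g : GQ M // ∀ x ∈ Set.range fun i => (incl i, (1 : GQ M)),
      valK sA φ (shiftIdx g x) = valK sA φ x} := ⟨⟨1, fun x _ => by rw [shiftIdx_one]⟩⟩
  exact (Nat.eq_of_mul_eq_mul_right Nat.card_pos h2).symm

/-- A member of the family fixed by `GTc` lies in the field of the generators. -/
theorem FamData.mem_gen [IsAlgClosed k] [Finite ι] (D : FamData G φC f sA incl ψ φ) (i : ι)
    (hi : ∀ γ ∈ GTc M, ∀ τ, f i (γ • τ) = f i τ) :
    valK sA φ (i, 1) ∈ IntermediateField.adjoin k⟮jv (1 : kˣ) M⟯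
      (valK sA φ '' Set.range fun j => (incl j, (1 : GQ M))) := by
  set J : Set (ι × GQ M) := Set.range fun j => (incl j, (1 : GQ M))
  set J' : Set (ι × GQ M) := insert (i, 1) J
  have heq : ∀ g : GQ M, (∀ x ∈ J', valK sA φ (shiftIdx g x) = valK sA φ x) ↔
      ∀ x ∈ J, valK sA φ (shiftIdx g x) = valK sA φ x := by
    intro g
    refine ⟨fun h x hx => h x (Set.mem_insert_of_mem _ hx), fun h x hx => ?_⟩
    rcases hx with rfl | hx
    · induction g using QuotientGroup.induction_on with
      | H γ =>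
        have hγ : γ ∈ GTc M := (D.stab_gen γ).1 fun j => by simpa [shiftIdx] using h _ ⟨j, rfl⟩
        simpa [shiftIdx] using D.valK_fix i γ (hi γ hγ)
    · exact h x hx
  have h1 := D.finrank_mul_card J
  have h2 := D.finrank_mul_card J'
  rw [Nat.card_congr (Equiv.subtypeEquivRight heq), ← h1] at h2
  have : Nonempty {g : GQ M // ∀ x ∈ J, valK sA φ (shiftIdx g x) = valK sA φ x} :=
    ⟨⟨1, fun x _ => by rw [shiftIdx_one]⟩⟩
  have h3 := Nat.eq_of_mul_eq_mul_right Nat.card_pos h2
  have hle : IntermediateField.adjoin k⟮jv (1 : kˣ) M⟯ (valK sA φ '' J) ≤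
      IntermediateField.adjoin k⟮jv (1 : kˣ) M⟯ (valK sA φ '' J') :=
    IntermediateField.adjoin.mono _ _ _ (Set.image_mono (Set.subset_insert _ _))
  have hpos : 0 < Module.finrank k⟮jv (1 : kˣ) M⟯
      (IntermediateField.adjoin k⟮jv (1 : kˣ) M⟯ (valK sA φ '' J')) := by
    rw [h3]
    refine Nat.pos_of_ne_zero fun h0 => ?_
    rw [h0, zero_mul] at h1
    exact Nat.card_pos.ne h1
  have := Module.finite_of_finrank_pos hpos
  rw [IntermediateField.eq_of_le_of_finrank_eq hle h3.symm]
  exact IntermediateField.subset_adjoin _ _ ⟨(i, 1), Set.mem_insert _ _, rfl⟩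

end Fermat.Agent.WeightOneGalois.Field
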