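import Fermat.Agent.Igusa.LevelOne
import Fermat.Agent.WeightOneGalois.Interface

/-!
# Functions of level `M` with poles at the cusps and their series in `t = e^(2πiτ/M)`

`wSub M` consists of the functions `h` with `h Δ^e` holomorphic, `M`-periodic and bounded at
`i∞`; `wLp` is its expansion in `t`.
-/

noncomputable section

open UpperHalfPlane Filter Function
open scoped MatrixGroups ModularForm Manifold Topology

namespace Fermat.Agent.WeightOneGalois.Field

open Fermat.Agent.MF Fermat.Agent.Igusa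

variable {M : ℕ}

theorem vadd_eq_affH (τ : ℍ) (n : ℤ) : ((n : ℝ) +ᵥ τ) = affH 1 1 n τ :=
  UpperHalfPlane.ext (by simp [add_comm])

theorem apply_vadd_nat {f : ℍ → ℂ} (hf : IsQFn f) (τ : ℍ) (m : ℤ) :
    f ((m : ℝ) +ᵥ τ) = f τ := by
  have h := (hf.periodic.int_mul m) (τ : ℂ)
  simp only [comp_apply, ofComplex_apply] at h
  refine Eq.trans ?_ h
  congr 1
  rw [ofComplex_apply_of_im_pos (by simpa using τ.im_pos)]
  exact UpperHalfPlane.ext (by simp [add_comm])

theorem isUFn_deltaFn : IsUFn M deltaFn :=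
  isUFn_of_vadd (fun τ => by simpa using apply_vadd_nat isFormFn_delta.isQFnTop τ M)
    isFormFn_delta.mdiff isFormFn_delta.isQFnTop.bdd

variable [NeZero M]

variable (M) in
/-- `Δ` as a function periodic modulo `M`. -/
def deltaW : goodSub M := ⟨deltaFn, isUFn_deltaFn⟩

theorem lpHom_deltaW : lpHom M (deltaW M) = deltaU M := by
  rw [lpHom_isQFn isFormFn_delta.isQFnTop (deltaW M) rfl, lq_deltaFn, deltaU]

theorem deltaU_ne : deltaU M ≠ 0 := fun h => lq_delta_ne_zero <| by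
  rw [lq_deltaFn]
  exact sub_injective (1 : ℂˣ) (NeZero.ne M) (by rw [map_zero]; exact h)

variable (M) in
/-- Functions which a power of `Δ` makes periodic, holomorphic and bounded. -/
def wSub : Subalgebra ℂ (ℍ → ℂ) where
  carrier := {h | ∃ e : ℕ, IsUFn M (h * deltaFn ^ e)}
  mul_mem' := by
    rintro h h' ⟨e, he⟩ ⟨e', he'⟩
    refine ⟨e + e', ?_⟩
    rw [show h * h' * deltaFn ^ (e + e') = (h * deltaFn ^ e) * (h' * deltaFn ^ e') by ring]
    exact (goodSub M).mul_mem he he'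
  add_mem' := by
    rintro h h' ⟨e, he⟩ ⟨e', he'⟩
    refine ⟨e + e', ?_⟩
    rw [show (h + h') * deltaFn ^ (e + e') =
      (h * deltaFn ^ e) * deltaFn ^ e' + (h' * deltaFn ^ e') * deltaFn ^ e by ring]
    exact (goodSub M).add_mem ((goodSub M).mul_mem he ((goodSub M).pow_mem isUFn_deltaFn e'))
      ((goodSub M).mul_mem he' ((goodSub M).pow_mem isUFn_deltaFn e))
  algebraMap_mem' c := ⟨0, by rw [pow_zero, mul_one]; exact (goodSub M).algebraMap_mem c⟩

omit [NeZero M] in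
theorem goodSub_le_wSub : goodSub M ≤ wSub M := fun f hf => ⟨0, by rwa [pow_zero, mul_one]⟩

/-- The expansion of a function in `wSub M`, as a function. -/
def wLpFun (h : wSub M) : LaurentSeries ℂ :=
  lpHom M ⟨_, h.2.choose_spec⟩ / deltaU M ^ h.2.choose

theorem wLpFun_eq (h : wSub M) (e : ℕ) (he : IsUFn M ((h : ℍ → ℂ) * deltaFn ^ e)) :
    wLpFun h = lpHom M ⟨_, he⟩ / deltaU M ^ e := by
  rw [wLpFun, div_eq_div_iff (pow_ne_zero _ deltaU_ne) (pow_ne_zero _ deltaU_ne),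
    ← lpHom_deltaW, ← map_pow, ← map_pow, ← map_mul, ← map_mul]
  exact congrArg _ (Subtype.ext (funext fun τ => by simp [deltaW]; ring))

variable (M) in
/-- The expansion in `t`. -/
def wLp : wSub M →+* LaurentSeries ℂ where
  toFun := wLpFun
  map_one' := by
    have h : IsUFn M (((1 : wSub M) : ℍ → ℂ) * deltaFn ^ 0) := by
      simpa only [pow_zero, mul_one] using
          (show IsUFn M ((1 : wSub M) : ℍ → ℂ) from (goodSub M).one_mem)
    rw [wLpFun_eq 1 0 h, pow_zero (deltaU M), div_one]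
    exact (congrArg _ (Subtype.ext (by simp))).trans (map_one (lpHom M))
  map_zero' := by
    have h : IsUFn M (((0 : wSub M) : ℍ → ℂ) * deltaFn ^ 0) := by
      simpa only [pow_zero, mul_one] using
          (show IsUFn M ((0 : wSub M) : ℍ → ℂ) from (goodSub M).zero_mem)
    rw [wLpFun_eq 0 0 h, pow_zero (deltaU M), div_one]
    exact (congrArg _ (Subtype.ext (by simp))).trans (map_zero (lpHom M))
  map_mul' h h' := by
    obtain ⟨e, he⟩ := h.2
    obtain ⟨e', he'⟩ := h'.2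
    have hm : IsUFn M (((h * h' : wSub M) : ℍ → ℂ) * deltaFn ^ (e + e')) := by
      rw [show ((h * h' : wSub M) : ℍ → ℂ) * deltaFn ^ (e + e') =
        ((h : ℍ → ℂ) * deltaFn ^ e) * ((h' : ℍ → ℂ) * deltaFn ^ e') by push_cast; ring]
      exact (goodSub M).mul_mem he he'
    rw [wLpFun_eq _ _ hm, wLpFun_eq h e he, wLpFun_eq h' e' he', div_mul_div_comm, ← pow_add,
      ← map_mul]
    exact congrArg (fun f => lpHom M f / _) (Subtype.ext (by push_cast; ring))
  map_add' h h' := by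
    obtain ⟨e, he⟩ := h.2
    obtain ⟨e', he'⟩ := h'.2
    have hm : IsUFn M (((h + h' : wSub M) : ℍ → ℂ) * deltaFn ^ (e + e')) := by
      rw [show ((h + h' : wSub M) : ℍ → ℂ) * deltaFn ^ (e + e') =
        ((h : ℍ → ℂ) * deltaFn ^ e) * deltaFn ^ e' + ((h' : ℍ → ℂ) * deltaFn ^ e') * deltaFn ^ e by
          push_cast; ring]
      exact (goodSub M).add_mem ((goodSub M).mul_mem he ((goodSub M).pow_mem isUFn_deltaFn e'))
        ((goodSub M).mul_mem he' ((goodSub M).pow_mem isUFn_deltaFn e))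
    rw [wLpFun_eq _ _ hm, wLpFun_eq h e he, wLpFun_eq h' e' he',
      div_add_div _ _ (pow_ne_zero _ deltaU_ne) (pow_ne_zero _ deltaU_ne), ← pow_add,
      ← lpHom_deltaW, ← map_pow, ← map_pow, ← map_pow, ← map_mul, ← map_mul, ← map_add]
    exact congrArg (fun f => lpHom M f / _) (Subtype.ext (funext fun τ => by simp [deltaW]; ring))

theorem wLp_eq (h : wSub M) (e : ℕ) (he : IsUFn M ((h : ℍ → ℂ) * deltaFn ^ e)) :
    wLp M h = lpHom M ⟨_, he⟩ / deltaU M ^ e := wLpFun_eq h e he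

theorem wLp_mul_pow (h : wSub M) (e : ℕ) (g : goodSub M)
    (hg : ∀ τ, (g : ℍ → ℂ) τ = (h : ℍ → ℂ) τ * deltaFn τ ^ e) :
    wLp M h * deltaU M ^ e = lpHom M g := by
  have hg' : (g : ℍ → ℂ) = (h : ℍ → ℂ) * deltaFn ^ e := funext hg
  rw [wLp_eq h e (hg' ▸ g.2), div_mul_cancel₀ _ (pow_ne_zero _ deltaU_ne)]
  exact congrArg _ (Subtype.ext hg'.symm)

theorem wLp_of_good (g : goodSub M) :
    wLp M ⟨g, goodSub_le_wSub g.2⟩ = lpHom M g := by
  simpa using wLp_mul_pow ⟨_, goodSub_le_wSub g.2⟩ 0 g (by simp)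

/-- An invariant function is, in `t`, a polynomial in `j`. -/
theorem exists_evalAt_of_invariant (h : wSub M)
    (hinv : ∀ (γ : SL(2, ℤ)) (τ : ℍ), (h : ℍ → ℂ) (γ • τ) = (h : ℍ → ℂ) τ) :
    ∃ P : Polynomial ℂ, wLp M h = evalAt (jv (1 : ℂˣ) M) P := by
  obtain ⟨e, he⟩ := h.2
  set f : ℍ → ℂ := (h : ℍ → ℂ) * deltaFn ^ e with hf
  have hslash : ∀ γ : SL(2, ℤ), f ∣[(12 : ℤ) * e] γ = f := fun γ => by
    ext τ
    have h1 := congrFun ((isFormFn_delta.pow e).slash_eq γ trivial) τ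
    rw [ModularForm.SL_slash_apply, mul_comm (e : ℤ) 12] at h1
    rw [ModularForm.SL_slash_apply, hf, Pi.mul_apply, Pi.mul_apply, hinv, mul_assoc, h1]
  have hform : IsFormFn ⊤ (12 * (e : ℤ)) f :=
    ⟨fun γ _ => hslash γ, he.mdiff, fun γ => by rw [hslash γ]; exact he.bdd⟩
  obtain ⟨P, -, hP⟩ := hform.exists_polynomial
  refine ⟨P, mul_right_cancel₀ (pow_ne_zero e (deltaU_ne (M := M))) ?_⟩
  rw [wLp_mul_pow h e ⟨f, he⟩ fun τ => rfl, lpHom_isQFn hform.isQFnTop _ rfl, hP, lq_deltaFn,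
    aeval_eq_evalAt, map_mul, map_pow, ← RingHom.comp_apply, sub_evalAt (1 : ℂˣ) (NeZero.ne M),
        deltaU]
  rfl

theorem mdiff_div {f g : ℍ → ℂ} (hf : MDifferentiable 𝓘(ℂ) 𝓘(ℂ) f)
    (hg : MDifferentiable 𝓘(ℂ) 𝓘(ℂ) g) (h0 : ∀ τ, g τ ≠ 0) :
    MDifferentiable 𝓘(ℂ) 𝓘(ℂ) (f / g) := by
  rw [mdifferentiable_iff] at hf hg ⊢
  exact hf.div hg fun z _ => h0 _

/-- `Δ(τ)^a / Δ((aτ + b)/d)` is bounded at `i∞`. -/
theorem isBounded_delta_div (a d : ℕ) [NeZero a] [NeZero d] (b : ℤ) :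
    IsBoundedAtImInfty fun τ => deltaFn τ ^ a / deltaFn (affH a d b τ) := by
  set g : ℍ → ℂ := fun τ => ∏' n : ℕ, (1 - ModularForm.eta_q n τ) ^ 24 with hgdef
  have hg : Tendsto g atImInfty (𝓝 1) := ModularForm.tendsto_atImInfty_tprod_one_sub_eta_q_pow
  have hq : ∀ z : ℍ, deltaFn z = Periodic.qParam 1 z * g z := fun z =>
    ModularForm.discriminant_eq_q_prod z
  have h1 : IsBoundedAtImInfty fun τ => g τ ^ a / g (affH a d b τ) :=
    ((hg.pow a).div (hg.comp (tendsto_affH a d b)) one_ne_zero).isBigO_one ℝ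
  have h2 : IsBoundedAtImInfty fun τ : ℍ =>
      Periodic.qParam 1 (τ : ℂ) ^ a / Periodic.qParam 1 (affH a d b τ : ℂ) := by
    rw [isBoundedAtImInfty_iff]
    refine ⟨1, 0, fun τ _ => ?_⟩
    rw [norm_div, norm_pow, Periodic.norm_qParam, Periodic.norm_qParam, ← Real.exp_nat_mul,
      ← Real.exp_sub, Real.exp_le_one_iff,
      show (affH a d b τ : ℂ).im = (a : ℝ) / d * τ.im from im_affH a d b τ,
      show (τ : ℂ).im = τ.im from rfl]
    have hd : (1 : ℝ) ≤ d := by exact_mod_cast NeZero.pos d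
    have hle : (a : ℝ) / d ≤ a := div_le_self (Nat.cast_nonneg a) hd
    have h3 := mul_nonneg (mul_nonneg (mul_nonneg zero_le_two Real.pi_pos.le) τ.im_pos.le)
      (sub_nonneg.2 hle)
    linarith
  have e : (fun τ => deltaFn τ ^ a / deltaFn (affH a d b τ)) =
      (fun τ : ℍ => Periodic.qParam 1 (τ : ℂ) ^ a / Periodic.qParam 1 (affH a d b τ : ℂ)) *
        fun τ => g τ ^ a / g (affH a d b τ) := by
    funext τ
    rw [Pi.mul_apply, hq, hq, mul_pow]
    ring
  rw [e]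
  exact h2.mul h1

omit [NeZero M] in
theorem coe_vadd_affH {a d : ℕ} [NeZero a] [NeZero d] {b : ℤ} {m : ℕ} (hm : M * a = d * m)
    (τ : ℍ) : affH a d b ((M : ℝ) +ᵥ τ) = ((m : ℝ) +ᵥ affH a d b τ) := by
  apply UpperHalfPlane.ext
  simp only [coe_affH, coe_vadd, Complex.ofReal_natCast]
  have h : (M : ℂ) * a = d * m := by exact_mod_cast hm
  have hd : (d : ℂ) ≠ 0 := by exact_mod_cast NeZero.ne d
  field_simp
  linear_combination h

theorem qParam_affH {a d : ℕ} [NeZero a] [NeZero d] {b : ℤ} {m : ℕ} (hm : M * a = d * m)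
    (τ : ℍ) : Periodic.qParam 1 (affH a d b τ : ℂ) =
      Complex.exp (2 * Real.pi * Complex.I * b / d) * Periodic.qParam (M : ℝ) (τ : ℂ) ^ m := by
  simp only [Periodic.qParam, ← Complex.exp_nat_mul, ← Complex.exp_add, coe_affH]
  congr 1
  have hd : (d : ℂ) ≠ 0 := by exact_mod_cast NeZero.ne d
  have hM : (M : ℂ) ≠ 0 := by exact_mod_cast NeZero.ne M
  have h : (M : ℂ) * a = d * m := by exact_mod_cast hm
  push_cast
  field_simp
  linear_combination (τ : ℂ) * h

/-- The expansion of a quotient `F/Δ^w` composed with an affine map. -/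
theorem comp_affH_mem {a d : ℕ} [NeZero a] [NeZero d] {b : ℤ} {m : ℕ} (hm : M * a = d * m)
    (ω : ℂˣ) (hω : (ω : ℂ) = Complex.exp (2 * Real.pi * Complex.I * b / d)) {F h : ℍ → ℂ}
    (hF : IsQFn F) (w : ℕ) (hh : ∀ τ, h τ * deltaFn (affH a d b τ) ^ w = F (affH a d b τ)) :
    ∃ hmem : h ∈ wSub M, wLp M ⟨h, hmem⟩ * sub ω m (deltaSer ℂ) ^ w = sub ω m (lq F) := by
  have hm0 : m ≠ 0 := by
    intro h0
    rw [h0, mul_zero, mul_eq_zero] at hm
    exact hm.elim (NeZero.ne M) (NeZero.ne a)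
  have hper : ∀ {f : ℍ → ℂ}, IsQFn f → IsUFn M (f ∘ affH a d b) := fun {f} hf =>
    isUFn_of_vadd (fun τ => by
        simp only [comp_apply, coe_vadd_affH hm]
        simpa using apply_vadd_nat hf (affH a d b τ) m)
      (mdiff_affH a d b hf.mdiff) (hf.bdd.comp_tendsto (tendsto_affH a d b))
  have hD := hper isFormFn_delta.isQFnTop
  have hFU := hper hF
  have hprod : h * deltaFn ^ (a * w) =
      (F ∘ affH a d b) * (fun τ => deltaFn τ ^ a / deltaFn (affH a d b τ)) ^ w := by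
    funext τ
    have h0 := pow_ne_zero w (deltaFn_ne_zero (affH a d b τ))
    simp only [Pi.mul_apply, Pi.pow_apply, comp_apply, ← hh, div_pow, ← pow_mul]
    field_simp
  have hmem : h ∈ wSub M := by
    refine ⟨a * w, ?_⟩
    rw [hprod]
    refine (goodSub M).mul_mem hFU ((goodSub M).pow_mem ?_ w)
    refine isUFn_of_vadd (fun τ => ?_) ?_ (isBounded_delta_div a d b)
    · have h1 : deltaFn ((M : ℝ) +ᵥ τ) = deltaFn τ := by
        simpa using apply_vadd_nat isFormFn_delta.isQFnTop τ M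
      have h2 : deltaFn ((m : ℝ) +ᵥ affH a d b τ) = deltaFn (affH a d b τ) := by
        simpa using apply_vadd_nat isFormFn_delta.isQFnTop (affH a d b τ) m
      rw [coe_vadd_affH hm, h1, h2]
    · have e : (fun τ => deltaFn τ ^ a / deltaFn (affH a d b τ)) =
          deltaFn ^ a / (deltaFn ∘ affH a d b) := rfl
      rw [e]
      exact mdiff_div (isFormFn_delta.pow a).mdiff hD.mdiff fun τ => deltaFn_ne_zero _
  refine ⟨hmem, ?_⟩
  have hφ : ∀ τ : ℍ, Periodic.qParam 1 (affH a d b τ : ℂ) =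
      (ω : ℂ) * Periodic.qParam (M : ℝ) τ ^ m := fun τ => by rw [qParam_affH hm, hω]
  rw [← lq_deltaFn, ← lpHom_comp isFormFn_delta.isQFnTop (affH a d b) ω hm0 hφ
      ⟨_, hD⟩ (fun τ => rfl),
    ← lpHom_comp hF (affH a d b) ω hm0 hφ ⟨_, hFU⟩ (fun τ => rfl), ← map_pow, ← wLp_of_good,
    ← wLp_of_good, ← map_mul]
  exact congrArg _ (Subtype.ext (funext fun τ => by simpa using hh τ))

variable (M) in
/-- `e^(2πi/M)` as a unit. -/
def zetaU : ℂˣ := Units.mk0 (zetaC M) (Complex.exp_ne_zero _)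

theorem zetaU_pow_self : zetaU M ^ M = 1 := by
  ext
  simp only [zetaU, Units.val_pow_eq_pow_val, Units.val_mk0, Units.val_one, zetaC,
    ← Complex.exp_nat_mul]
  rw [show (M : ℂ) * (2 * Real.pi * Complex.I / M) = 2 * Real.pi * Complex.I by
    field_simp [(Nat.cast_ne_zero.2 (NeZero.ne M) : (M : ℂ) ≠ 0)]]
  exact Complex.exp_two_pi_mul_I

/-- Translation by one scales `t` by `ζ`. -/
theorem wLp_translate (h h' : wSub M)
    (hh : ∀ τ, (h' : ℍ → ℂ) τ = (h : ℍ → ℂ) ((1 : ℝ) +ᵥ τ)) :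
    wLp M h' = sub (zetaU M) 1 (wLp M h) := by
  obtain ⟨e, he⟩ := h.2
  set f : goodSub M := ⟨_, he⟩
  have haff : ∀ τ : ℍ, ((1 : ℝ) +ᵥ τ) = affH 1 1 1 τ := fun τ => by
    simpa using vadd_eq_affH τ 1
  have hdel : ∀ τ : ℍ, deltaFn (affH 1 1 1 τ) = deltaFn τ := fun τ => by
    rw [← haff]; simpa using apply_vadd_nat isFormFn_delta.isQFnTop τ 1
  have hg : IsUFn M ((f : ℍ → ℂ) ∘ affH 1 1 1) := by
    refine isUFn_of_vadd (fun τ => ?_) (mdiff_affH 1 1 1 he.mdiff)
      (he.bdd.comp_tendsto (tendsto_affH 1 1 1))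
    have hp := he.periodic ((affH 1 1 1 τ : ℍ) : ℂ)
    simp only [comp_apply, ofComplex_apply] at hp
    rw [ofComplex_apply_of_im_pos (by simpa using τ.im_pos)] at hp
    refine Eq.trans ?_ hp
    simp only [comp_apply]
    exact congrArg _ (UpperHalfPlane.ext (by simp; ring))
  have hsum : ∀ τ : ℍ, HasSum (fun n : ℕ =>
      ((zetaU M : ℂ) ^ n * (qExpansion (M : ℝ) (f : ℍ → ℂ)).coeff n) •
        Periodic.qParam (M : ℝ) τ ^ n) ((f : ℍ → ℂ) (affH 1 1 1 τ)) := by
    intro τ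
    have hs := hasSum_qExpansion (by exact_mod_cast NeZero.pos M) he.periodic he.mdiff he.bdd
      (affH 1 1 1 τ)
    convert hs using 1
    funext n
    have hq : Periodic.qParam (M : ℝ) (affH 1 1 1 τ : ℂ) =
        (zetaU M : ℂ) * Periodic.qParam (M : ℝ) (τ : ℂ) := by
      simp only [Periodic.qParam, zetaU, Units.val_mk0, zetaC, ← Complex.exp_add, coe_affH]
      congr 1
      have hM : (M : ℂ) ≠ 0 := by exact_mod_cast NeZero.ne M
      push_cast
      field_simp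
      ring
    rw [hq, smul_eq_mul, smul_eq_mul, mul_pow]
    ring
  have key := fun n => qExpansion_coeff_unique (F := UFun) (show UFun from (f : ℍ → ℂ) ∘ affH 1 1 1)
    (by exact_mod_cast NeZero.pos M) hg.analyticAt hsum n
  have hlp : lpHom M ⟨_, hg⟩ = sub (zetaU M) 1 (lpHom M f) := by
    ext k
    rw [show sub (zetaU M) 1 (lpHom M f) = scaleHom (zetaU M) (lpHom M f) by
      rw [Igusa.sub_apply]; exact ModularCurve.qExpand_one_apply _, scaleHom_coeff, lpHom_apply,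
      lpHom_apply]
    rcases lt_or_ge k 0 with hk | hk
    · rw [ModularCurve.ofPowerSeries_coeff_of_neg _ hk,
        ModularCurve.ofPowerSeries_coeff_of_neg _ hk,
        mul_zero]
    · lift k to ℕ using hk
      rw [HahnSeries.ofPowerSeries_apply_coeff, HahnSeries.ofPowerSeries_apply_coeff, zpow_natCast,
        Units.val_pow_eq_pow_val]
      exact (key k).symm
  have h1 : wLp M h' * deltaU M ^ e = lpHom M ⟨_, hg⟩ :=
    wLp_mul_pow h' e ⟨_, hg⟩ fun τ => by
      show ((h : ℍ → ℂ) * deltaFn ^ e) (affH 1 1 1 τ) = _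
      rw [Pi.mul_apply, Pi.pow_apply, hdel, hh, haff]
  have hd : sub (zetaU M) 1 (deltaU M) = deltaU M := by
    rw [deltaU, sub_sub _ _ one_ne_zero (NeZero.ne M), one_mul, one_mul, zetaU_pow_self]
  refine mul_right_cancel₀ (pow_ne_zero e (deltaU_ne (M := M))) ?_
  rw [h1, hlp, ← wLp_mul_pow h e f fun τ => rfl, map_mul, map_pow, hd]

end Fermat.Agent.WeightOneGalois.Field
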