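import Mathlib.Algebra.MvPolynomial.Rename
import Mathlib.Algebra.Polynomial.Lifts
import Mathlib.Algebra.Polynomial.Roots
import Mathlib.FieldTheory.IntermediateField.Adjoin.Basic

/-!
# The Galois group of a family of elements permuted by a finite group

`G` acts on the index set `ι × G` by right translation.  If the formally invariant polynomials
take values in the base field and the family separates `G`, the field generated by the family
has a subgroup of `G` as Galois group.
-/

noncomputable section

open Polynomial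

namespace Fermat.Agent.WeightOneGalois.Field

variable {ι G : Type*} [Group G]

/-- Right translation of an index. -/
def shiftIdx (g : G) (x : ι × G) : ι × G := (x.1, x.2 * g)

theorem shiftIdx_shiftIdx (g h : G) (x : ι × G) :
    shiftIdx h (shiftIdx g x) = shiftIdx (g * h) x := by simp [shiftIdx, mul_assoc]

@[simp] theorem shiftIdx_one (x : ι × G) : shiftIdx 1 x = x := by simp [shiftIdx]

/-- Right translation of the variables. -/
def shiftPoly (g : G) : MvPolynomial (ι × G) ℤ →+* MvPolynomial (ι × G) ℤ :=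
  (MvPolynomial.rename (shiftIdx g)).toRingHom

theorem shiftPoly_X (g : G) (x : ι × G) :
    shiftPoly g (MvPolynomial.X x : MvPolynomial (ι × G) ℤ) = MvPolynomial.X (shiftIdx g x) :=
  MvPolynomial.rename_X _ _

variable {B L : Type*} [Field B] [Field L] [Algebra B L]

/-- Evaluation at the family. -/
def evFam (s : ι × G → L) : MvPolynomial (ι × G) ℤ →+* L :=
  MvPolynomial.eval₂Hom (Int.castRingHom L) s

omit [Group G] in
@[simp] theorem evFam_X (s : ι × G → L) (x : ι × G) : evFam s (MvPolynomial.X x) = s x :=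
  MvPolynomial.eval₂Hom_X' _ _ _

/-- The hypothesis on formally invariant polynomials. -/
def InvariantValues (B : Type*) [Field B] [Algebra B L] (s : ι × G → L) : Prop :=
  ∀ P : MvPolynomial (ι × G) ℤ, (∀ g, shiftPoly g P = P) → evFam s P ∈ (algebraMap B L).range

theorem exists_lift_of_invariant {s : ι × G → L} (hinv : InvariantValues B s) (t : B)
    (Q : (MvPolynomial (ι × G) ℤ)[X][X]) (hQ : ∀ g, Q.map (mapRingHom (shiftPoly g)) = Q) :
    ∃ q : B[X], q.map (algebraMap B L) = Q.map (eval₂RingHom (evFam s) (algebraMap B L t)) := by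
  refine (mem_lifts _).1 ((lifts_iff_coeff_lifts _).2 fun n => ?_)
  rw [coeff_map, coe_eval₂RingHom, eval₂_eq_sum_range]
  refine Subring.sum_mem (algebraMap B L).range fun b _ => ?_
  refine Subring.mul_mem _ (hinv _ fun g => ?_) ⟨t ^ b, map_pow _ _ _⟩
  have h := congrArg (fun P : (MvPolynomial (ι × G) ℤ)[X][X] => (P.coeff n).coeff b) (hQ g)
  simpa [coeff_map] using h

variable [Fintype G]

/-- A value of the auxiliary variable separating the translates of the generic element. -/
theorem exists_separating [Fintype ι] [Infinite B] {s : ι × G → L}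
    (hdist : ∀ g : G, g ≠ 1 → ∃ x, s (shiftIdx g x) ≠ s x) (e : ι × G → ℕ)
    (he : Function.Injective e) :
    ∃ t : B, Function.Injective fun g => eval₂RingHom (evFam s) (algebraMap B L t)
      (∑ x, C (MvPolynomial.X (shiftIdx g x)) * X ^ e x) := by
  classical
  let Θ : G → (MvPolynomial (ι × G) ℤ)[X] := fun g =>
    ∑ x, C (MvPolynomial.X (shiftIdx g x)) * X ^ e x
  let F : L[X] := ∏ p ∈ (Finset.univ : Finset G).offDiag,
    ((Θ p.1).map (evFam s) - (Θ p.2).map (evFam s))
  have hF : F ≠ 0 := Finset.prod_ne_zero_iff.2 fun p hp => by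
    obtain ⟨x, hx⟩ := hdist (p.2⁻¹ * p.1) fun h =>
      (Finset.mem_offDiag.1 hp).2.2 (inv_mul_eq_one.1 h).symm
    intro h0
    have h := congrArg (fun P : L[X] => P.coeff (e (x.1, x.2 * p.2⁻¹))) h0
    simp [Θ, Polynomial.map_sum, finsetSum_coeff, coeff_X_pow, he.eq_iff, shiftIdx,
      mul_assoc] at h
    exact hx (by simpa [shiftIdx, sub_eq_zero] using h)
  obtain ⟨t, ht⟩ : ∃ t : B, ¬ F.IsRoot (algebraMap B L t) := by
    by_contra h
    push Not at h
    exact hF (eq_zero_of_infinite_isRoot F
      ((Set.infinite_range_of_injective (algebraMap B L).injective).mono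
        (Set.range_subset_iff.2 h)))
  refine ⟨t, fun g g' h => by_contra fun hne => ht ?_⟩
  rw [IsRoot, eval_prod]
  refine Finset.prod_eq_zero (i := (g, g'))
    (Finset.mem_offDiag.2 ⟨Finset.mem_univ g, Finset.mem_univ g', hne⟩) ?_
  simpa [eval_map, sub_eq_zero, Θ, eval₂_finsetSum] using h

omit [Group G] in
/-- A monic divisor of `∏ (X - θ g)`, `θ` injective, has the number of its roots among the `θ g`
as degree. -/
theorem natDegree_eq_card_isRoot {θ : G → L} (ht : Function.Injective θ) {f : L[X]}
    (hf : f.Monic) (hdvd : f ∣ ∏ g, (X - C (θ g))) :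
    f.natDegree = Nat.card {g // f.IsRoot (θ g)} := by
  classical
  have hne : (∏ g, (X - C (θ g))) ≠ 0 := Finset.prod_ne_zero_iff.2 fun g _ => X_sub_C_ne_zero _
  have hspl : f.Splits := (Splits.prod fun g _ => Splits.X_sub_C _).of_dvd hne hdvd
  have hroots : (∏ g, (X - C (θ g))).roots = Finset.univ.val.map θ := by
    rw [Finset.prod_eq_multiset_prod, ← roots_multiset_prod_X_sub_C (Finset.univ.val.map θ),
      Multiset.map_map]
    rfl
  have hnd : f.roots.Nodup := Multiset.nodup_of_le (roots.le_of_dvd hne hdvd)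
    (hroots ▸ Finset.univ.nodup.map ht)
  have himg : f.roots.toFinset = (Finset.univ.filter fun g => f.IsRoot (θ g)).image θ := by
    ext r
    simp only [Multiset.mem_toFinset, Finset.mem_image, Finset.mem_filter, Finset.mem_univ,
      true_and]
    constructor
    · intro hr
      have := Multiset.mem_of_le (roots.le_of_dvd hne hdvd) hr
      rw [hroots, Multiset.mem_map] at this
      obtain ⟨g, -, rfl⟩ := this
      exact ⟨g, (mem_roots hf.ne_zero).1 hr, rfl⟩
    · rintro ⟨g, hg, rfl⟩
      exact (mem_roots hf.ne_zero).2 hg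
  rw [hspl.natDegree_eq_card_roots, ← Multiset.toFinset_card_of_nodup hnd, himg,
    Finset.card_image_of_injective _ ht, Nat.card_eq_fintype_card, Fintype.card_subtype]

/-- Interpolation: a family `a` permuted like the translates is, at the roots `θ g`, a polynomial
over the base field up to the product of the differences of the roots. -/
theorem exists_interpolation [DecidableEq G] {s : ι × G → L} (hinv : InvariantValues B s) (t : B)
    (Θ a : G → (MvPolynomial (ι × G) ℤ)[X])
    (hΘ : ∀ g h, (Θ g).map (shiftPoly h) = Θ (g * h))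
    (ha : ∀ g h, (a g).map (shiftPoly h) = a (g * h)) :
    ∃ Q : B[X], ∀ g, aeval (eval₂RingHom (evFam s) (algebraMap B L t) (Θ g)) Q =
      eval₂RingHom (evFam s) (algebraMap B L t) (a g) * ∏ g' ∈ Finset.univ.erase g,
        (eval₂RingHom (evFam s) (algebraMap B L t) (Θ g) -
          eval₂RingHom (evFam s) (algebraMap B L t) (Θ g')) := by
  classical
  set ev : (MvPolynomial (ι × G) ℤ)[X] →+* L := eval₂RingHom (evFam s) (algebraMap B L t)
  obtain ⟨Q, hQ⟩ := exists_lift_of_invariant hinv t
    (∑ g, C (a g) * ∏ g' ∈ Finset.univ.erase g, (X - C (Θ g'))) fun h => by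
      rw [Polynomial.map_sum]
      refine Fintype.sum_equiv (Equiv.mulRight h) _ _ fun g => ?_
      rw [Polynomial.map_mul, map_C, Polynomial.map_prod, coe_mapRingHom, ha]
      congr 1
      exact Finset.prod_equiv (Equiv.mulRight h) (fun g' => by simp) fun g' _ => by simp [hΘ]
  refine ⟨Q, fun g => ?_⟩
  rw [← aeval_map_algebraMap L, hQ, Polynomial.map_sum, map_sum, Finset.sum_eq_single g]
  · simp [Polynomial.map_prod, ev, eval_prod]
  · intro g' _ hg'
    simp only [Polynomial.map_mul, Polynomial.map_prod, map_mul, map_prod]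
    rw [Finset.prod_eq_zero (Finset.mem_erase.2 ⟨hg'.symm, Finset.mem_univ g⟩) (by simp [ev]),
      mul_zero]
  · simp

/-- A primitive element `θ 1 = ∑ c x · s x` with injective conjugates `θ g`, the polynomial with
these roots, and polynomials expressing the family in the conjugates. -/
theorem exists_primitive [Fintype ι] [Infinite B] {s : ι × G → L} (hinv : InvariantValues B s)
    (hdist : ∀ g : G, g ≠ 1 → ∃ x, s (shiftIdx g x) ≠ s x) :
    ∃ (c : ι × G → B) (θ : G → L) (P D : B[X]) (N : ι × G → B[X]),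
      Function.Injective θ ∧
      (∀ g, θ g = ∑ x, algebraMap B L (c x) * s (shiftIdx g x)) ∧
      P.map (algebraMap B L) = ∏ g, (X - C (θ g)) ∧ (∀ g, aeval (θ g) D ≠ 0) ∧
      ∀ x g, aeval (θ g) (N x) = s (shiftIdx g x) * aeval (θ g) D := by
  classical
  let e : ι × G → ℕ := fun x => (Fintype.equivFin (ι × G) x : ℕ)
  have he : Function.Injective e := fun x y h => (Fintype.equivFin _).injective (Fin.ext h)
  let Θ : G → (MvPolynomial (ι × G) ℤ)[X] := fun g =>
    ∑ x, C (MvPolynomial.X (shiftIdx g x)) * X ^ e x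
  have hΘ : ∀ g h, (Θ g).map (shiftPoly h) = Θ (g * h) := fun g h => by
    simp [Θ, Polynomial.map_sum, shiftPoly_X, shiftIdx_shiftIdx]
  -- the specialisation of the auxiliary variable
  obtain ⟨t, ht⟩ := exists_separating (B := B) hdist e he
  set ev : (MvPolynomial (ι × G) ℤ)[X] →+* L := eval₂RingHom (evFam s) (algebraMap B L t)
  let θ : G → L := fun g => ev (Θ g)
  have hθ : ∀ g, θ g = ∑ x, algebraMap B L (t ^ e x) * s (shiftIdx g x) := fun g => by
    simp only [θ, Θ, map_sum]
    refine Finset.sum_congr rfl fun x _ => ?_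
    simp only [ev, coe_eval₂RingHom, eval₂_mul, eval₂_C, eval₂_X_pow, evFam_X, map_pow, mul_comm]
  -- the polynomial with roots θ
  obtain ⟨P, hP⟩ : ∃ P : B[X], P.map (algebraMap B L) = ∏ g, (X - C (θ g)) := by
    obtain ⟨P, hP⟩ := exists_lift_of_invariant hinv t (∏ g, (X - C (Θ g))) fun h => by
      rw [Polynomial.map_prod]
      exact Fintype.prod_equiv (Equiv.mulRight h) _ _ fun g => by simp [hΘ]
    exact ⟨P, by simp [hP, Polynomial.map_prod, θ, ev]⟩
  -- interpolation
  have hinterp : ∀ a : G → (MvPolynomial (ι × G) ℤ)[X],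
      (∀ g h, (a g).map (shiftPoly h) = a (g * h)) →
      ∃ Q : B[X], ∀ g, aeval (θ g) Q = ev (a g) * ∏ g' ∈ Finset.univ.erase g, (θ g - θ g') :=
    fun a => exists_interpolation hinv t Θ a hΘ
  obtain ⟨D, hD⟩ := hinterp (fun _ => 1) fun g h => by simp
  have hD0 : ∀ g, aeval (θ g) D ≠ 0 := fun g => by
    rw [hD, map_one, one_mul]
    exact Finset.prod_ne_zero_iff.2 fun g' hg' =>
      sub_ne_zero.2 fun h => (Finset.mem_erase.1 hg').1 (ht h).symm
  have hN' : ∀ x, ∃ Q : B[X], ∀ g, aeval (θ g) Q = s (shiftIdx g x) * aeval (θ g) D := fun x => by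
    obtain ⟨Q, hQ⟩ := hinterp (fun g => C (MvPolynomial.X (shiftIdx g x))) fun g h => by
      simp [shiftPoly_X, shiftIdx_shiftIdx]
    exact ⟨Q, fun g => by simp [hQ, hD, ev]⟩
  choose N hN using hN'
  exact ⟨fun x => t ^ e x, θ, P, D, N, ht, hθ, hP, hD0, hN⟩

/-- **Galois group of a family.** -/
theorem exists_galois [Finite ι] [Infinite B] {s : ι × G → L} (hinv : InvariantValues B s)
    (hdist : ∀ g : G, g ≠ 1 → ∃ x, s (shiftIdx g x) ≠ s x) :
    ∃ H : Subgroup G,
      (∀ σ : L →+* L, (∀ b, σ (algebraMap B L b) = algebraMap B L b) →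
        ∀ g, (∀ x, σ (s x) = s (shiftIdx g x)) → g ∈ H) ∧
      ∀ J : Set (ι × G), Module.finrank B (IntermediateField.adjoin B (s '' J)) *
          Nat.card {g : G // g ∈ H ∧ ∀ x ∈ J, s (shiftIdx g x) = s x} = Nat.card H := by
  classical
  let _ := Fintype.ofFinite ι
  obtain ⟨co, θ, P, D, N, ht, hθ, hP, hD0, hN⟩ := exists_primitive hinv hdist
  -- the field generated by the primitive element
  have hPne : P ≠ 0 := fun h => by
    have := congrArg natDegree hP
    simp [h, natDegree_prod_of_monic _ _ fun g _ => monic_X_sub_C (θ g)] at this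
    exact Fintype.card_ne_zero this.symm
  have hP0 : ∀ g, aeval (θ g) P = 0 := fun g => by
    rw [← aeval_map_algebraMap L, hP, map_prod]
    exact Finset.prod_eq_zero (Finset.mem_univ g) (by simp)
  have hint : IsIntegral B (θ 1) :=
    IsAlgebraic.isIntegral ⟨P, hPne, hP0 1⟩
  set μ : B[X] := minpoly B (θ 1)
  set E := IntermediateField.adjoin B {θ 1}
  set pb := IntermediateField.adjoin.powerBasis hint
  have hgen : (pb.gen : L) = θ 1 := by simp [pb]
  have hμ : ∀ g, aeval (θ g) μ = 0 → aeval (θ g) (minpoly B pb.gen) = 0 := fun g h => by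
    rwa [← minpoly.algebraMap_eq (algebraMap E L).injective pb.gen,
      show algebraMap E L pb.gen = θ 1 from hgen]
  have hsE : ∀ x, s x ∈ E := fun x => by
    have h := hN x 1
    rw [shiftIdx_one] at h
    rw [show s x = aeval (θ 1) (N x) / aeval (θ 1) D by rw [h, mul_div_cancel_right₀ _ (hD0 1)]]
    have hmem : ∀ Q : B[X], aeval (θ 1) Q ∈ E := fun Q =>
      IntermediateField.algebra_adjoin_le_adjoin B {θ 1} (aeval_mem_adjoin_singleton B _)
    exact div_mem (hmem _) (hmem _)
  have hc : ∀ (y : E) (Q : B[X]), ((aeval y Q : E) : L) = aeval (y : L) Q := fun y Q =>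
    (aeval_algHom_apply E.val y Q).symm
  have hφ : ∀ g, aeval (θ g) μ = 0 → ∃ φ : E →ₐ[B] L, φ pb.gen = θ g ∧
      ∀ x, φ ⟨s x, hsE x⟩ = s (shiftIdx g x) := fun g hg => by
    refine ⟨pb.lift (θ g) (hμ g hg), pb.lift_gen _ _, fun x => ?_⟩
    set φ := pb.lift (θ g) (hμ g hg)
    have h : (⟨s x, hsE x⟩ : E) * aeval pb.gen D = aeval pb.gen (N x) := by
      apply Subtype.ext
      have h1 := hN x 1
      rw [shiftIdx_one] at h1
      rw [MulMemClass.coe_mul, hc, hc, hgen]
      exact h1.symm
    have h2 := congrArg φ h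
    rw [map_mul, ← aeval_algHom_apply, ← aeval_algHom_apply, pb.lift_gen, hN x g] at h2
    exact mul_right_cancel₀ (hD0 g) h2
  have hmul : ∀ g h, aeval (θ g) μ = 0 → aeval (θ h) μ = 0 → aeval (θ (g * h)) μ = 0 := by
    intro g h hg hh
    obtain ⟨φ, -, hφ⟩ := hφ h hh
    have hmem : θ g ∈ E := by
      rw [hθ]
      exact sum_mem fun x _ => mul_mem (E.algebraMap_mem _) (hsE _)
    have e1 : φ ⟨θ g, hmem⟩ = θ (g * h) := by
      have : (⟨θ g, hmem⟩ : E) = ∑ x, algebraMap B E (co x) * ⟨s (shiftIdx g x), hsE _⟩ := by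
        apply Subtype.ext
        simpa using hθ g
      rw [this, map_sum, hθ]
      exact Finset.sum_congr rfl fun x _ => by
        rw [map_mul, AlgHom.commutes, hφ, shiftIdx_shiftIdx]
    have e2 : aeval (⟨θ g, hmem⟩ : E) μ = 0 := Subtype.ext (by rw [hc]; exact hg)
    rw [← e1, aeval_algHom_apply, e2, map_zero]
  let Hm : Submonoid G :=
    { carrier := {g | aeval (θ g) μ = 0}
      mul_mem' := fun {g h} => hmul g h
      one_mem' := minpoly.aeval B (θ 1) }
  let H : Subgroup G :=
    { Hm with
      inv_mem' := fun {g} hg => by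
        rw [inv_eq_of_mul_eq_one_right (show g * g ^ (orderOf g - 1) = 1 by
          rw [← pow_succ', Nat.sub_add_cancel (orderOf_pos g), pow_orderOf_eq_one])]
        exact Hm.pow_mem hg _ }
  have hH : ∀ g, g ∈ H ↔ aeval (θ g) μ = 0 := fun g => Iff.rfl
  -- a monic divisor of the polynomial with roots θ
  have hcount := fun f hf hdvd => natDegree_eq_card_isRoot (L := L) ht (f := f) hf hdvd
  have hdvdP : μ ∣ P := minpoly.dvd B _ (hP0 1)
  have hdeg : Module.finrank B E = Nat.card H := by
    rw [IntermediateField.adjoin.finrank hint, ← natDegree_map (f := algebraMap B L) (p := μ),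
      hcount _ ((minpoly.monic hint).map _) (hP ▸ Polynomial.map_dvd _ hdvdP)]
    exact Nat.card_congr (Equiv.subtypeEquivRight fun g => by
      rw [hH, IsRoot, eval_map, ← aeval_def])
  refine ⟨H, fun σ hσ g hg => ?_, fun J => ?_⟩
  · have h1 : σ (θ 1) = θ g := by simp [hθ, hσ, hg]
    have h2 := congrArg σ (minpoly.aeval B (θ 1))
    rw [map_zero, aeval_def, hom_eval₂, h1,
      show σ.comp (algebraMap B L) = algebraMap B L from RingHom.ext hσ, ← aeval_def] at h2
    exact h2
  set K := IntermediateField.adjoin B (s '' J)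
  have hKE : K ≤ E := IntermediateField.adjoin_le_iff.2 (by rintro _ ⟨x, -, rfl⟩; exact hsE x)
  set μK := minpoly K (θ 1)
  have hintK : IsIntegral K (θ 1) := hint.tower_top
  have hμK : μK ∣ μ.map (algebraMap B K) := minpoly.dvd_map_of_isScalarTower B K (θ 1)
  have hroot : ∀ g, (μK.map (algebraMap K L)).IsRoot (θ g) ↔
      g ∈ H ∧ ∀ x ∈ J, s (shiftIdx g x) = s x := fun g => by
    rw [IsRoot, eval_map, ← aeval_def]
    constructor
    · intro h
      refine ⟨(hH g).2 ?_, fun x hx => ?_⟩
      · rw [← aeval_map_algebraMap K (θ g) μ]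
        exact aeval_eq_zero_of_dvd_aeval_eq_zero hμK h
      · set sx : K := ⟨s x, IntermediateField.subset_adjoin B _ ⟨x, hx, rfl⟩⟩
        set F : K[X] := (N x).map (algebraMap B K) - C sx * D.map (algebraMap B K)
        have hF : ∀ g, aeval (θ g) F = (s (shiftIdx g x) - s x) * aeval (θ g) D := fun g => by
          simp [F, aeval_map_algebraMap, hN, sx, sub_mul]
        have h1 : μK ∣ F := minpoly.dvd K _ (by simp [hF])
        have h2 := aeval_eq_zero_of_dvd_aeval_eq_zero h1 h
        rw [hF, mul_eq_zero, sub_eq_zero] at h2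
        exact h2.resolve_right (hD0 g)
    · rintro ⟨hg, hfix⟩
      obtain ⟨φ, hφg, hφs⟩ := hφ g ((hH g).1 hg)
      let i : K →ₐ[B] E := IntermediateField.inclusion hKE
      have hfixK : ∀ y : K, φ (i y) = (y : L) :=
        DFunLike.congr_fun (IntermediateField.adjoin_algHom_ext B (φ₁ := φ.comp i) (φ₂ := K.val)
          fun y hy => by obtain ⟨x, hx, rfl⟩ := hy; exact (hφs x).trans (hfix x hx))
      have h0 : eval₂ (i : K →+* E) pb.gen μK = 0 := by
        apply (algebraMap E L).injective
        rw [hom_eval₂, map_zero]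
        exact (show algebraMap E L pb.gen = θ 1 from hgen).symm ▸ minpoly.aeval K (θ 1)
      have h2 := congrArg (φ : E →+* L) h0
      rw [hom_eval₂, map_zero, show (φ : E →+* L).comp (i : K →+* E) = algebraMap K L from
        RingHom.ext hfixK] at h2
      rw [RingHom.coe_coe, hφg] at h2
      exact h2
  have hdegK : Module.finrank K (IntermediateField.adjoin K {θ 1}) =
      Nat.card {g : G // g ∈ H ∧ ∀ x ∈ J, s (shiftIdx g x) = s x} := by
    rw [IntermediateField.adjoin.finrank hintK, ← natDegree_map (f := algebraMap K L) (p := μK),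
      hcount _ ((minpoly.monic hintK).map _) ?_]
    · exact Nat.card_congr (Equiv.subtypeEquivRight hroot)
    · have h := Polynomial.map_dvd (algebraMap K L) (hμK.trans (Polynomial.map_dvd _ hdvdP))
      rwa [Polynomial.map_map, ← IsScalarTower.algebraMap_eq, hP] at h
  have hEK : (IntermediateField.adjoin K {θ 1}).restrictScalars B = E := by
    rw [IntermediateField.adjoin_adjoin_left]
    exact le_antisymm (IntermediateField.adjoin_le_iff.2 (Set.union_subset
        (by rintro _ ⟨x, -, rfl⟩; exact hsE x)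
        (by simpa using IntermediateField.mem_adjoin_simple_self B (θ 1))))
      (IntermediateField.adjoin.mono B _ _ Set.subset_union_right)
  rw [← hdegK, ← hdeg, Module.finrank_mul_finrank]
  exact congrArg (fun M : IntermediateField B L => Module.finrank B M) hEK

end Fermat.Agent.WeightOneGalois.Field
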