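import Mathlib.RingTheory.Localization.Away.Basic
import Mathlib.RingTheory.Polynomial.Cyclotomic.Roots
import Fermat.Agent.MF.Descent
import Fermat.Agent.WeightOneGalois.Field.Funs

/-!
# The ring `ℤ[ζ, 1/M]` and functions with expansions over a ring

`CRing M` maps to `ℂ` and to every field with a primitive `M`-th root of unity; `HasSer` says that
a function has a given series with coefficients in such a ring. This transports identities from
`ℂ` to other characteristics.
-/

noncomputable section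

open Polynomial UpperHalfPlane Function
open scoped MatrixGroups

namespace Fermat.Agent.WeightOneGalois.Field

open Fermat.Agent.MF Fermat.Agent.Igusa ModularCurve

variable (M : ℕ) [NeZero M]

/-- `ℤ[ζ]`. -/
abbrev CycM : Type := AdjoinRoot (cyclotomic M ℤ)

/-- `ℤ[ζ, 1/M]`. -/
abbrev CRing : Type := Localization.Away (M : CycM M)

/-- `ζ`. -/
def zetaA : CRing M := algebraMap (CycM M) (CRing M) (AdjoinRoot.root _)

theorem isPrimitiveRoot_zetaC : IsPrimitiveRoot (zetaC M) M :=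
  Complex.isPrimitiveRoot_exp M (NeZero.ne M)

variable {M} {k : Type*} [Field k]

/-- The homomorphism to a field with a chosen primitive root. -/
def toField (ζ : k) (hζ : IsPrimitiveRoot ζ M) (hM : (M : k) ≠ 0) : CRing M →+* k :=
  IsLocalization.Away.lift (M : CycM M) (g := AdjoinRoot.lift (Int.castRingHom k) ζ (by
    rw [← eval_map, map_cyclotomic_int]
    exact hζ.isRoot_cyclotomic (NeZero.pos M))) (by rw [map_natCast]; exact isUnit_iff_ne_zero.2 hM)

theorem toField_zetaA (ζ : k) (hζ : IsPrimitiveRoot ζ M) (hM : (M : k) ≠ 0) :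
    toField ζ hζ hM (zetaA M) = ζ := by
  rw [toField, zetaA, IsLocalization.Away.lift_eq, AdjoinRoot.lift_root]

variable (M)

/-- The embedding in `ℂ`. -/
def toC : CRing M →+* ℂ :=
  toField (zetaC M) (isPrimitiveRoot_zetaC M) (Nat.cast_ne_zero.2 (NeZero.ne M))

theorem toC_zetaA : toC M (zetaA M) = zetaC M := toField_zetaA _ _ _

theorem toC_injective : Injective (toC M) := by
  have hM : (M : ℂ) ≠ 0 := Nat.cast_ne_zero.2 (NeZero.ne M)
  rw [injective_iff_map_eq_zero]
  intro x hx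
  obtain ⟨n, a, ha⟩ := IsLocalization.Away.surj (M : CycM M) x
  have h := congrArg (toC M) ha
  rw [map_mul, hx, zero_mul, toC, toField, IsLocalization.Away.lift_eq] at h
  obtain ⟨P, rfl⟩ := AdjoinRoot.mk_surjective a
  rw [AdjoinRoot.lift_mk] at h
  have hd : cyclotomic M ℤ ∣ P := by
    rw [cyclotomic_eq_minpoly (isPrimitiveRoot_zetaC M) (NeZero.pos M)]
    refine minpoly.isIntegrallyClosed_dvd
      ((isPrimitiveRoot_zetaC M).isIntegral (NeZero.pos M)) ?_
    rw [aeval_def]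
    exact h.symm
  rw [AdjoinRoot.mk_eq_zero.2 hd, map_zero] at ha
  have hu : IsUnit (algebraMap (CycM M) (CRing M) (M : CycM M)) :=
    IsLocalization.map_units (CRing M) (⟨_, Submonoid.mem_powers _⟩ : Submonoid.powers (M : CycM M))
  exact (hu.pow n).mul_left_eq_zero.1 ha

instance : IsDomain (CRing M) := (toC_injective M).isDomain _

theorem isPrimitiveRoot_zetaA : IsPrimitiveRoot (zetaA M) M :=
  IsPrimitiveRoot.of_map_of_injective (f := toC M)
    ((toC_zetaA M).symm ▸ isPrimitiveRoot_zetaC M) (toC_injective M)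

/-- `ζ` as a unit. -/
def zetaAU : (CRing M)ˣ := (isPrimitiveRoot_zetaA M).toRootsOfUnity.1

theorem coe_zetaAU : (zetaAU M : CRing M) = zetaA M := rfl

theorem isUnit_one_sub_pow {m : ℕ} (hm : ¬ M ∣ m) : IsUnit (1 - zetaA M ^ m) := by
  obtain ⟨n, rfl⟩ : ∃ n, M = n + 1 := ⟨M - 1, (Nat.sub_add_cancel (NeZero.pos M)).symm⟩
  have hprod := (isPrimitiveRoot_zetaA (n + 1)).prod_one_sub_pow_eq_order
  have hu : IsUnit ((n + 1 : ℕ) : CRing (n + 1)) := by
    rw [← map_natCast (algebraMap (CycM (n + 1)) (CRing (n + 1)))]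
    exact IsLocalization.map_units (CRing (n + 1))
      (⟨_, Submonoid.mem_powers _⟩ : Submonoid.powers ((n + 1 : ℕ) : CycM (n + 1)))
  replace hu : IsUnit (∏ k ∈ Finset.range n, (1 - zetaA (n + 1) ^ (k + 1))) := by
    rw [hprod]; exact_mod_cast hu
  rw [IsUnit.prod_iff] at hu
  have h0 : m % (n + 1) ≠ 0 := fun h => hm (Nat.dvd_of_mod_eq_zero h)
  have hlt : m % (n + 1) < n + 1 := Nat.mod_lt m (Nat.succ_pos n)
  rw [pow_eq_pow_mod m (isPrimitiveRoot_zetaA (n + 1)).pow_eq_one]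
  have := hu (m % (n + 1) - 1) (Finset.mem_range.2 (by omega))
  rwa [Nat.sub_add_cancel (Nat.pos_of_ne_zero h0)] at this

/-! ### Functions with expansions over a ring -/

variable {M} {R : Type*} [CommRing R]

/-- The function has the given series in `t`. -/
def HasSer (M : ℕ) [NeZero M] (φ : R →+* ℂ) (h : ℍ → ℂ) (F : LaurentSeries R) : Prop :=
  ∃ hm : h ∈ wSub M, wLp M ⟨h, hm⟩ = coeffMap φ F

theorem HasSer.unique {φ : R →+* ℂ} (hφ : Injective φ) {h : ℍ → ℂ} {F F' : LaurentSeries R}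
    (hF : HasSer M φ h F) (hF' : HasSer M φ h F') : F = F' := by
  obtain ⟨_, e⟩ := hF
  obtain ⟨_, e'⟩ := hF'
  exact coeffMap_injective hφ (e.symm.trans e')

theorem HasSer.translate {φ : R →+* ℂ} {h h' : ℍ → ℂ} {F F' : LaurentSeries R} (ζ : Rˣ)
    (hζ : φ ζ = zetaC M) (hφ : Injective φ) (hF : HasSer M φ h F) (hF' : HasSer M φ h' F')
    (hh : ∀ τ, h' τ = h ((1 : ℝ) +ᵥ τ)) : F' = sub ζ 1 F := by
  obtain ⟨hm, e⟩ := hF
  obtain ⟨hm', e'⟩ := hF'
  refine coeffMap_injective hφ ?_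
  rw [coeffMap_sub φ ζ one_ne_zero, ← e, ← e', wLp_translate ⟨h, hm⟩ ⟨h', hm'⟩ hh]
  congr 2
  exact Units.ext hζ.symm

/-- `j` at `(aτ + b)/d`. -/
theorem hasSer_jFun_affH {φ : R →+* ℂ} {a d : ℕ} [NeZero a] [NeZero d] {b : ℤ} {m : ℕ}
    (hm : M * a = d * m) (η : Rˣ)
    (hη : φ η = Complex.exp (2 * Real.pi * Complex.I * b / d)) :
    HasSer M φ (fun τ => jFun (affH a d b τ)) (jv η m) := by
  have hm0 : m ≠ 0 := fun h0 => mul_ne_zero (NeZero.ne M) (NeZero.ne a) (by rw [hm, h0, mul_zero])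
  set ω : ℂˣ := Units.map (φ : R →* ℂ) η
  obtain ⟨hmem, e⟩ := comp_affH_mem hm ω hη (isFormFn_E4.isQFnTop.pow 3) 1
    (h := fun τ => jFun (affH a d b τ)) fun τ => by rw [pow_one]; exact jFun_mul_delta _
  refine ⟨hmem, ?_⟩
  rw [coeffMap_jv φ η hm0, jv]
  have hne : sub ω m (deltaSer ℂ) ≠ 0 := fun h => lq_delta_ne_zero <| by
    rw [lq_deltaFn]
    exact sub_injective ω hm0 (h.trans (map_zero _).symm)
  refine mul_right_cancel₀ hne ?_
  rw [← map_mul, ← lq_deltaFn, jqModC_mul_lq_delta, ← lq_pow isFormFn_E4.isQFnTop, ← e, pow_one,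
    lq_deltaFn]

end Fermat.Agent.WeightOneGalois.Field
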