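import Fermat.Agent.WeightOneGalois.Field.Family

/-!
# Families containing the generators: values at the identity and stabilisers

The stabiliser of the generators among the cosets is `GTc M`; this identifies the subfield they
generate in `Field/FamilyGalois`.
-/

noncomputable section

open UpperHalfPlane Function
open scoped MatrixGroups

namespace Fermat.Agent.WeightOneGalois.Field

open Fermat.Agent.MF Fermat.Agent.Igusa ModularCurve

variable {M : ℕ} [NeZero M] {G : ZMod M × ZMod M → ℍ → ℂ} {R : Type*} [CommRing R]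
  {φC : R →+* ℂ} {ι : Type*} {f : ι → ℍ → ℂ} {sA : ι × GQ M → LaurentSeries R} {incl : Gen M → ι}
  {ψ : CRing M →+* R} {k : Type*} [Field k] {φ : R →+* k}

/-- A family with expansions over `R` containing the generators, read in `k`. -/
structure FamData (G : ZMod M × ZMod M → ℍ → ℂ) (φC : R →+* ℂ) (f : ι → ℍ → ℂ)
    (sA : ι × GQ M → LaurentSeries R) (incl : Gen M → ι) (ψ : CRing M →+* R) (φ : R →+* k) :
    Prop where
  fam : IsYFamily G
  four_le : 4 ≤ M
  inj : Injective φC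
  compat : φC.comp ψ = toC M
  pm : PmInv (M := M) f
  ser : ∀ x, HasSer M φC (fG f x) (sA x)
  incl_eq : ∀ i, f (incl i) = baseFun G i
  char : (M : k) ≠ 0
  prim : IsPrimitiveRoot (φ (ψ (zetaA M))) M

variable (sA φ) in
/-- The series of the family with coefficients mapped into `k`. -/
def valK (x : ι × GQ M) : LaurentSeries k := coeffMap φ (sA x)

theorem FamData.valK_eq (D : FamData G φC f sA incl ψ φ) (i : Gen M) (γ : SL(2, ℤ))
    {F : LaurentSeries (CRing M)} (hF : HasSer M (toC M) (fun τ => baseFun G i (γ • τ)) F) :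
    valK sA φ (incl i, (γ : GQ M)) = coeffMap (φ.comp ψ) F := by
  have h := D.ser (incl i, (γ : GQ M))
  rw [fG_mk D.pm, D.incl_eq] at h
  rw [valK, h.unique D.inj (hF.map D.compat), coeffMap_coeffMap]

theorem FamData.valK_fix (D : FamData G φC f sA incl ψ φ) (i : ι) (γ : SL(2, ℤ))
    (h : ∀ τ, f i (γ • τ) = f i τ) : valK sA φ (i, (γ : GQ M)) = valK sA φ (i, 1) := by
  have h1 := D.ser (i, (γ : GQ M))
  have h2 := D.ser (i, ((1 : SL(2, ℤ)) : GQ M))
  rw [fG_mk D.pm] at h1 h2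
  rw [show (fun τ => f i (γ • τ)) = fun τ => f i ((1 : SL(2, ℤ)) • τ) by
    funext τ; rw [h, one_smul]] at h1
  rw [valK, valK, h1.unique D.inj h2]
  rfl

theorem FamData.valK_inl_one (D : FamData G φC f sA incl ψ φ)
    (e : {e : ℕ // e ∈ (M ^ 2).divisors}) :
    valK sA φ (incl (.inl e), 1) = jv (1 : kˣ) (e : ℕ) := by
  refine (D.valK_eq (.inl e) 1 (F := jv 1 (e : ℕ)) ?_).trans ?_
  · simpa using hasSer_baseFun_inl_one e
  · rw [coeffMap_jv _ _ (NeZero.ne _), map_one]

theorem FamData.valK_inr (D : FamData G φC f sA incl ψ φ) (x : (ZMod M)ˣ) {γ : SL(2, ℤ)}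
    (hγ : γ ∈ Gamma00 M) :
    valK sA φ (incl (.inr x), (γ : GQ M)) = yFam k 1 ((x : ZMod M) * (γ 0 0 : ZMod M), 0) := by
  have hM := D.four_le
  have : Fact (1 < M) := ⟨by omega⟩
  have hx : IsPrim ((x : ZMod M) * (γ 0 0 : ZMod M), (0 : ZMod M)) := by
    have := isPrim_rowMul (isPrim_units x) γ
    rwa [rowMul_fst_zero, hγ.1, mul_zero] at this
  rw [D.valK_eq (.inr x) γ (F := yFam (CRing M) (zetaA M) ((x : ZMod M) * (γ 0 0 : ZMod M), 0)) ?_,
    coeffMap_yFam _ (goodRow_zetaA (by omega) hx)]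
  · refine yFam_snd_zero _ (fun h0 => ?_) rfl
    exact (x.isUnit.mul (IsUnit.of_mul_eq_one _ (diag_mul_eq_one hγ.2))).ne_zero h0
  · rw [show (fun τ => baseFun G (.inr x) (γ • τ)) =
      yFun G ((x : ZMod M) * (γ 0 0 : ZMod M), 0) from funext fun τ => by
        show yFun G _ (γ • τ) = _
        rw [D.fam.yFun_smul (isPrim_units x), rowMul_fst_zero, hγ.1, mul_zero]]
    exact D.fam.hasSer_yFun (by omega) hx

theorem FamData.valK_inr_one (D : FamData G φC f sA incl ψ φ) (x : (ZMod M)ˣ) :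
    valK sA φ (incl (.inr x), 1) = yFam k 1 ((x : ZMod M), 0) := by
  refine (D.valK_inr x (one_mem _)).trans ?_
  simp

/-- An element fixing the `j`-generator of index `1` has upper right entry divisible by `M`. -/
theorem FamData.upper_dvd (D : FamData G φC f sA incl ψ φ) (γ : SL(2, ℤ))
    (h : valK sA φ (incl (.inl ⟨1, Nat.one_mem_divisors.2 (pow_ne_zero 2 (NeZero.ne M))⟩),
      (γ : GQ M)) =
      valK sA φ (incl (.inl ⟨1, Nat.one_mem_divisors.2 (pow_ne_zero 2 (NeZero.ne M))⟩), 1)) :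
    ((γ 0 1 : ℤ) : ZMod M) = 0 := by
  obtain ⟨σ, a, d, b, had, -, -, h01, hser⟩ :=
    exists_hasSer_jCoset (M := M) (e := 1) (e' := M) (by simp) γ
  rw [one_mul] at had
  have ha0 : a ≠ 0 := fun h0 => NeZero.ne M (by rw [← had, h0, zero_mul])
  have hd0 : d ≠ 0 := fun h0 => NeZero.ne M (by rw [← had, h0, mul_zero])
  have hmd : M / d = a := by rw [← had, Nat.mul_div_cancel _ (Nat.pos_of_ne_zero hd0)]
  rw [hmd] at hser
  rw [D.valK_inl_one, D.valK_eq (.inl ⟨1, Nat.one_mem_divisors.2 (pow_ne_zero 2 (NeZero.ne M))⟩) γ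
    hser, coeffMap_jv _ _ (mul_ne_zero ha0 ha0),
    jv_inj (mul_ne_zero ha0 ha0) (NeZero.ne _)] at h
  obtain ⟨hη, hm⟩ := h
  have ha : a = 1 := Nat.eq_one_of_mul_eq_one_left hm
  rw [ha, one_mul] at had
  rw [ha, Nat.cast_one, one_mul, map_zpow] at hη
  have hη2 := congrArg Units.val hη
  rw [Units.val_zpow_eq_zpow_val, Units.val_one] at hη2
  have hb := (D.prim.zpow_eq_one_iff_dvd b).1 hη2
  rw [ZMod.intCast_zmod_eq_zero_iff_dvd]
  rw [Nat.cast_one, one_mul] at h01
  rw [h01, had]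
  exact dvd_add (hb.mul_left _) (dvd_mul_left _ _)

/-- An element fixing the `j`-generator of index `M²` has lower left entry divisible by `M`. -/
theorem FamData.lower_dvd (D : FamData G φC f sA incl ψ φ) (γ : SL(2, ℤ))
    (h : valK sA φ (incl (.inl ⟨M ^ 2, Nat.mem_divisors_self _ (pow_ne_zero 2 (NeZero.ne M))⟩),
      (γ : GQ M)) =
      valK sA φ (incl (.inl ⟨M ^ 2, Nat.mem_divisors_self _ (pow_ne_zero 2 (NeZero.ne M))⟩), 1)) :
    ((γ 1 0 : ℤ) : ZMod M) = 0 := by
  obtain ⟨σ, a, d, b, had, -, h10, -, hser⟩ :=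
    exists_hasSer_jCoset (M := M) (e := M) (e' := 1) (by simp) γ
  rw [mul_one] at had
  have ha0 : a ≠ 0 := fun h0 => NeZero.ne M (by rw [← had, h0, zero_mul])
  have hd0 : d ≠ 0 := fun h0 => NeZero.ne M (by rw [← had, h0, mul_zero])
  have hmd : M / d = a := by rw [← had, Nat.mul_div_cancel _ (Nat.pos_of_ne_zero hd0)]
  rw [hmd] at hser
  set e2 : {e : ℕ // e ∈ (M ^ 2).divisors} :=
    ⟨M ^ 2, Nat.mem_divisors_self _ (pow_ne_zero 2 (NeZero.ne M))⟩
  have hfun : (fun τ => baseFun G (.inl e2) (γ • τ)) =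
      fun τ => jFun (affH M 1 0 (γ • τ)) := funext fun τ => congrArg jFun (UpperHalfPlane.ext (by
        have hM : (M : ℂ) ≠ 0 := Nat.cast_ne_zero.2 (NeZero.ne M)
        simp [e2, sq, mul_assoc, hM]))
  rw [← hfun] at hser
  rw [D.valK_inl_one, D.valK_eq _ γ hser, coeffMap_jv _ _ (mul_ne_zero ha0 ha0),
    jv_inj (mul_ne_zero ha0 ha0) (NeZero.ne _)] at h
  have ha : a = M := Nat.pow_left_injective two_ne_zero (show a ^ 2 = M ^ 2 by rw [sq]; exact h.2)
  rw [ZMod.intCast_zmod_eq_zero_iff_dvd]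
  rw [Nat.cast_one, one_mul, ha] at h10
  exact ⟨σ 1 0, by rw [h10, mul_comm]⟩

/-- The stabiliser of the `j`'s. -/
theorem FamData.stab_inl (D : FamData G φC f sA incl ψ φ) (γ : SL(2, ℤ)) :
    (∀ e, valK sA φ (incl (.inl e), (γ : GQ M)) = valK sA φ (incl (.inl e), 1)) ↔
      γ ∈ Gamma00 M := by
  refine ⟨fun h => ⟨D.upper_dvd γ (h _), D.lower_dvd γ (h _)⟩, fun h e => D.valK_fix _ γ ?_⟩
  rw [D.incl_eq]
  exact baseFun_inl_smul e h

/-- The stabiliser of all generators. -/
theorem FamData.stab_gen (D : FamData G φC f sA incl ψ φ) (γ : SL(2, ℤ)) :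
    (∀ i, valK sA φ (incl i, (γ : GQ M)) = valK sA φ (incl i, 1)) ↔ γ ∈ GTc M := by
  refine ⟨fun h => ?_, fun h i => D.valK_fix _ γ ?_⟩
  · have hγ := (D.stab_inl γ).1 fun e => h (.inl e)
    have hu := diag_mul_eq_one hγ.2
    refine ⟨hγ, ?_⟩
    have hM := D.four_le
    have e := h (.inr 1)
    rw [D.valK_inr 1 hγ, D.valK_inr_one, Units.val_one, one_mul] at e
    have e' : yFam k 1 (((1 : (ZMod M)ˣ) : ZMod M), 0) =
        yFam k 1 (((Units.mkOfMulEqOne _ _ hu : (ZMod M)ˣ) : ZMod M), 0) := by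
      simpa using e.symm
    rcases yFam_fst_inj (by omega) e' with h1 | h1
    · left
      rw [Units.val_mkOfMulEqOne, Units.val_one] at h1
      rwa [h1, one_mul] at hu
    · right
      rw [Units.val_mkOfMulEqOne, Units.val_one] at h1
      rw [h1] at hu
      linear_combination -hu
  · rw [D.incl_eq]
    cases i with
    | inl e => exact baseFun_inl_smul e h.1
    | inr x => exact baseFun_inr_smul D.fam x h

/-- Only the identity of the group fixes all values of the family. -/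
theorem FamData.exists_ne (D : FamData G φC f sA incl ψ φ) {g : GQ M} (hg : g ≠ 1) :
    ∃ x, valK sA φ (shiftIdx g x) ≠ valK sA φ x := by
  by_contra h
  push Not at h
  induction g using QuotientGroup.induction_on with
  | H γ =>
    obtain ⟨⟨hb, hc⟩, hd⟩ := (D.stab_gen γ).1 fun i => by simpa [shiftIdx] using h (incl i, 1)
    refine hg ((QuotientGroup.eq_one_iff γ).2 (mem_pmGamma_iff.2 ⟨hb, hc, ?_⟩))
    have hu := diag_mul_eq_one hc
    rcases hd with hd | hd <;> rw [hd] at hu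
    · exact Or.inl ⟨by rwa [mul_one] at hu, hd⟩
    · exact Or.inr ⟨by linear_combination -hu, hd⟩

end Fermat.Agent.WeightOneGalois.Field
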